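/-
M1 (row 38, S44), chapter TRI, TRI-INST part 2a (helper53): **Galois / rationality transport.**

`Y ⊆ J₀(N)(ℚ̄)` a finite `G_ℚ`-stable subgroup.  For every number field `L` (finite, normal over `ℚ`)
over which all of `Y` is rational, `V_L := Y.comap (bcPic0 N L) ⊆ Pic⁰(L·F_N)` is the group the local
chapters (CAR, TRI contracts over the model over `L`) work with; `G_ℚ` acts on it through
`galK N L τ` (`RatMain25`).  This file is the dictionary between `Y` and `V_L`:

* `exists_level` : `Y` is rational over all large `L`;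
* `map_VL`, `exists_mem_VL`, `tors_VL`, `finite_VL`, `VL_ne_bot`;
* `galKHom`, `galK_pow`, `galK_eq_one`, `stable_VL`, `order_VL`, `fixed_VL_iff`;
* `transfer` : a scalar action of `galK N L τ` on `V_L` is a scalar action of `τ` on `Y`
  (the `hscal` of `FixedSub47.false_of_scalar`, the `hcore` of `EndGame47.JSide.false_of_core`).
-/
import Mathlib
import Fermat.Agent.M1.Car.RatLevel25

set_option autoImplicit false
set_option linter.unusedSectionVars false
set_option linter.style.haveILetI false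

open AlgebraicCurve ModularCurve HahnSeries IntermediateField Polynomial IsLocalRing

namespace Fermat.Agent.M1.Tri.Transport53

open Fermat.Agent.X0 Fermat.Agent.X0.FF Fermat.Agent.RED.Interface4 Fermat.Agent.RED.DESC
  Fermat.Agent.M1.Car.RatClass25 Fermat.Agent.M1.Car.RatMain25 Fermat.Agent.M1.Car.RatLevel25

noncomputable section

/-- Shortcut to the instance found (slowly) by instance search. -/
local instance (priority := 5000) algKFK (M : ℕ) (K : IntermediateField ℚ Qbar) :
    Algebra K (FK M K) := SubalgebraClass.toAlgebra (FK M K)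

local notation "GQ" => (Qbar ≃ₐ[ℚ] Qbar)

variable (N : ℕ) [NeZero N]

/-! ### The group `V_L` -/

section VL

variable (L : IntermediateField ℚ Qbar) [FiniteDimensional ℚ L] (Y : AddSubgroup (JZero N))

/-- The classes of `Pic⁰(L·F_N)` whose image in `J₀(N)(ℚ̄)` lies in `Y`. -/
def VL : AddSubgroup (Pic0 L (FK N L)) := Y.comap (bcPic0 N L)

variable {N L Y}

theorem mem_VL {v : Pic0 L (FK N L)} : v ∈ VL N L Y ↔ bcPic0 N L v ∈ Y := Iff.rfl

/-- When `Y` is rational over `L`, it is the image of `V_L`. -/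
theorem map_VL (h : Y ≤ (bcPic0 N L).range) : (VL N L Y).map (bcPic0 N L) = Y := by
  apply le_antisymm
  · rintro y ⟨v, hv, rfl⟩
    exact hv
  · intro y hy
    obtain ⟨v, rfl⟩ := h hy
    exact ⟨v, hy, rfl⟩

theorem exists_mem_VL (h : Y ≤ (bcPic0 N L).range) {y : JZero N} (hy : y ∈ Y) :
    ∃ v ∈ VL N L Y, bcPic0 N L v = y := by
  obtain ⟨v, rfl⟩ := h hy
  exact ⟨v, hy, rfl⟩

/-- `V_L` is `p`-torsion when `Y` is (injectivity of `bcPic0`). -/
theorem tors_VL {p : ℕ} (htors : ∀ y ∈ Y, p • y = 0) : ∀ v ∈ VL N L Y, p • v = 0 := by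
  intro v hv
  apply bcPic0_injective N L
  rw [map_nsmul, map_zero]
  exact htors _ hv

/-- `V_L` is finite when `Y` is. -/
theorem finite_VL [Finite Y] : Finite (VL N L Y) := by
  refine Finite.of_injective (fun v : VL N L Y => (⟨bcPic0 N L v, v.2⟩ : Y)) ?_
  intro v w hvw
  apply Subtype.ext
  apply bcPic0_injective N L
  exact congrArg Subtype.val hvw

theorem finite_VL' (hfin : (Y : Set (JZero N)).Finite) :
    ((VL N L Y : AddSubgroup (Pic0 L (FK N L))) : Set (Pic0 L (FK N L))).Finite := by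
  refine Set.Finite.of_finite_image (f := bcPic0 N L) (hfin.subset ?_)
    ((bcPic0_injective N L).injOn)
  rintro y ⟨v, hv, rfl⟩
  exact hv

theorem VL_ne_bot (h : Y ≤ (bcPic0 N L).range) (hY : Y ≠ ⊥) : VL N L Y ≠ ⊥ := by
  intro hbot
  apply hY
  rw [← map_VL h, hbot, AddSubgroup.map_bot]

end VL

/-! ### `Y` is rational over all large number fields -/

/-- **A finite subgroup of `J₀(N)(ℚ̄)` is rational over every large number field.** -/
theorem exists_level (K₀ : IntermediateField ℚ Qbar) [FiniteDimensional ℚ K₀]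
    (Y : AddSubgroup (JZero N)) (hfin : (Y : Set (JZero N)).Finite) :
    ∃ (L₀ : IntermediateField ℚ Qbar) (_ : FiniteDimensional ℚ L₀) (_ : Normal ℚ L₀),
      K₀ ≤ L₀ ∧ ∀ (L : IntermediateField ℚ Qbar) [FiniteDimensional ℚ L], L₀ ≤ L →
        Y ≤ (bcPic0 N L).range := by
  obtain ⟨L₀, h1, h2, h3, h4⟩ := exists_normal_forall_mem_range_bcPic0 N K₀ (Y : Set (JZero N)) hfin
  refine ⟨L₀, h1, h2, h3, ?_⟩
  intro L _ hL y hy
  haveI := h1
  exact range_bcPic0_mono N hL (h4 y hy)

/-! ### The Galois action on `V_L` -/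

section Galois

variable (L : IntermediateField ℚ Qbar) [FiniteDimensional ℚ L] [Normal ℚ L]

/-- `τ ↦ galK N L τ` as a group homomorphism. -/
def galKHom : GQ →* SemilinearAut L (FK N L) :=
  (arithmeticGalois (modularFunctionFieldFull N)).comp
    (AlgEquiv.restrictNormalHom (F := ℚ) (K₁ := Qbar) L)

theorem galKHom_apply (τ : GQ) : galKHom N L τ = galK N L τ := rfl

theorem galK_one : galK N L 1 = 1 := by
  rw [← galKHom_apply, map_one]

theorem galK_mul (σ τ : GQ) : galK N L (σ * τ) = galK N L σ * galK N L τ := by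
  rw [← galKHom_apply, map_mul]; rfl

theorem galK_pow (τ : GQ) (n : ℕ) : galK N L (τ ^ n) = galK N L τ ^ n := by
  rw [← galKHom_apply, map_pow]; rfl

/-- `G_L` acts trivially on `L·F_N`. -/
theorem galK_eq_one {τ : GQ} (hτ : ∀ a ∈ L, τ a = a) : galK N L τ = 1 := by
  have h1 : τ.restrictNormal L = 1 := by
    apply AlgEquiv.ext
    intro a
    apply Subtype.ext
    have h2 := AlgEquiv.restrictNormal_commutes τ L a
    exact h2.trans (hτ a a.2)
  rw [galK_def, h1, map_one]

variable {N L}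
variable {Y : AddSubgroup (JZero N)}

/-- The dictionary: `bcPic0` is `G_ℚ`-equivariant (`RatMain25.bcPic0_smul`). -/
theorem bcPic0_galK_smul (τ : GQ) (v : Pic0 L (FK N L)) :
    bcPic0 N L (galK N L τ • v) = τ • bcPic0 N L v :=
  bcPic0_smul N L τ v

/-- **`V_L` is stable under `G_ℚ`** when `Y` is. -/
theorem stable_VL (hst : ∀ σ : GQ, ∀ y ∈ Y, σ • y ∈ Y) (τ : GQ) :
    ∀ v ∈ VL N L Y, galK N L τ • v ∈ VL N L Y := by
  intro v hv
  rw [mem_VL, bcPic0_galK_smul]
  exact hst τ _ hv

theorem fixed_VL_iff (τ : GQ) (v : Pic0 L (FK N L)) :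
    galK N L τ • v = v ↔ τ • bcPic0 N L v = bcPic0 N L v := by
  rw [← bcPic0_galK_smul]
  exact ⟨fun h => by rw [h], fun h => bcPic0_injective N L h⟩

/-- **The `order` field of the TRI contracts**: if `τ ^ n` is trivial on `Y` then `(galK τ) ^ n` is
trivial on `V_L`. -/
theorem order_VL (τ : GQ) (n : ℕ) (hτ : ∀ y ∈ Y, τ ^ n • y = y) :
    ∀ v ∈ VL N L Y, galK N L τ ^ n • v = v := by
  intro v hv
  rw [← galK_pow, fixed_VL_iff]
  exact hτ _ hv

/-- `G_L` acts trivially on `V_L`. -/
theorem smul_eq_of_fixes {τ : GQ} (hτ : ∀ a ∈ L, τ a = a) (v : Pic0 L (FK N L)) :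
    galK N L τ • v = v := by
  rw [galK_eq_one N L hτ, one_smul]

/-- **Transfer of the conclusion of TRI**: a scalar action of `galK N L τ` on `V_L` is a scalar
action of `τ` on `Y`. -/
theorem transfer (h : Y ≤ (bcPic0 N L).range) (τ : GQ) (c : ℕ)
    (H : ∀ v ∈ VL N L Y, galK N L τ • v = c • v) : ∀ y ∈ Y, τ • y = c • y := by
  intro y hy
  obtain ⟨v, hv, rfl⟩ := exists_mem_VL h hy
  rw [← bcPic0_galK_smul, H v hv, map_nsmul]

/-- the same with an integer scalar. -/
theorem transfer_int (h : Y ≤ (bcPic0 N L).range) (τ : GQ) (c : ℤ)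
    (H : ∀ v ∈ VL N L Y, galK N L τ • v = c • v) : ∀ y ∈ Y, τ • y = c • y := by
  intro y hy
  obtain ⟨v, hv, rfl⟩ := exists_mem_VL h hy
  rw [← bcPic0_galK_smul, H v hv, map_zsmul]

/-- the converse dictionary: a scalar action on `Y` is a scalar action on `V_L`. -/
theorem transfer_down (τ : GQ) (c : ℕ) (H : ∀ y ∈ Y, τ • y = c • y) :
    ∀ v ∈ VL N L Y, galK N L τ • v = c • v := by
  intro v hv
  apply bcPic0_injective N L
  rw [bcPic0_galK_smul, H _ hv, map_nsmul]

end Galois

end

end Fermat.Agent.M1.Tri.Transport53
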