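/-
M1 (row 38, S44), chapter TRI — helper45.

The abstract assembly of the local chapters (plan v2, report #593 §3).  Everything here is pure
group theory (Mathlib only): an abelian group `J` (think `J₀(M''p)(ℚ̄)`), a group `I` acting on it
(think: the inertia group `I_A`), a subgroup `V` of `p`-torsion vectors, an element `g₀ ∈ I`
(a generator of the wild inertia of the field of rationality `L` of `V`, of order dividing `p`
on `V`), and the depth filtrations

* over the tame field `K₁` (`e = p - 1`):  `J0K ⊇ J1K ⊇ J2K`,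
* over `L` (`e = p (p - 1)`):  `J0L ⊇ JL 1 ⊇ JL 2 ⊇ ⋯`.

The hypotheses `T1 … T7` are exactly the statements the local chapters (EIS, OLD, PIC, MON, NRM)
have to deliver; the conclusion is the conclusion of `CoreTors`: every `τ` acting on `μ_p` through
`ζ ↦ ζ ^ c` acts on `V` by the scalar `c`.
-/
import Mathlib

set_option autoImplicit false

namespace Fermat.Agent.M1.Tri.Abstract45

variable {J : Type*} [AddCommGroup J] {I : Type*} [Group I] [DistribMulAction I J]

theorem end_mul_apply (f g : AddMonoid.End J) (x : J) : (f * g) x = f (g x) := rfl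

theorem end_one_apply (x : J) : (1 : AddMonoid.End J) x = x := rfl

theorem end_add_apply (f g : AddMonoid.End J) (x : J) : (f + g) x = f x + g x := rfl

theorem end_sub_apply (f g : AddMonoid.End J) (x : J) : (f - g) x = f x - g x :=
  AddMonoidHom.sub_apply f g x

theorem end_neg_apply (f : AddMonoid.End J) (x : J) : (-f) x = -(f x) :=
  AddMonoidHom.neg_apply f x

theorem toEnd_apply (g : I) (x : J) : DistribMulAction.toAddMonoidEnd I J g x = g • x := rfl

/-- The additive endomorphism `x ↦ g • x - x`. -/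
def delta (g : I) : AddMonoid.End J := DistribMulAction.toAddMonoidEnd I J g - 1

theorem delta_apply (g : I) (x : J) : delta g x = g • x - x := by
  rw [delta, end_sub_apply, toEnd_apply, end_one_apply]

theorem toEnd_pow_apply (g : I) (n : ℕ) (x : J) :
    ((DistribMulAction.toAddMonoidEnd I J g) ^ n) x = g ^ n • x := by
  rw [← map_pow]
  rfl

/-- `(g - 1)^p` kills a `p`-torsion vector fixed by `g ^ p` (`p` an odd prime). -/
theorem delta_pow_prime_apply {p : ℕ} (hp : p.Prime) (hp2 : p ≠ 2) (g : I) (v : J)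
    (hv : p • v = 0) (hg : g ^ p • v = v) : (delta g ^ p) v = 0 := by
  have hcomm : Commute (DistribMulAction.toAddMonoidEnd I J g) (-1 : AddMonoid.End J) :=
    (Commute.one_right _).neg_right
  obtain ⟨r, hr⟩ := hcomm.exists_add_pow_prime_eq hp
  have hodd : Odd p := hp.odd_of_ne_two hp2
  have h1 : delta g = DistribMulAction.toAddMonoidEnd I J g + (-1 : AddMonoid.End J) := by
    rw [delta, sub_eq_add_neg]
  rw [h1, hr, hodd.neg_one_pow]
  rw [end_add_apply, end_add_apply, end_neg_apply, end_one_apply, toEnd_pow_apply, hg]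
  have h2 : ((p : AddMonoid.End J) * DistribMulAction.toAddMonoidEnd I J g * (-1) * r) v = 0 := by
    have h3 : ((p : AddMonoid.End J) * DistribMulAction.toAddMonoidEnd I J g * (-1) * r) =
        (DistribMulAction.toAddMonoidEnd I J g * (-1) * r) * (p : AddMonoid.End J) := by
      rw [mul_assoc, mul_assoc]
      exact (Nat.cast_commute p _).eq
    rw [h3, end_mul_apply]
    have h4 : (p : AddMonoid.End J) v = p • v := AddMonoid.End.natCast_apply p v
    rw [h4, hv, map_zero]
  rw [h2]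
  abel

/-- A nilpotent-on-`v` endomorphism with `f v ≠ 0` has a last nonzero iterate. -/
theorem exists_last_iterate (f : AddMonoid.End J) (v : J) (n : ℕ) (hn : (f ^ n) v = 0)
    (hv : f v ≠ 0) : ∃ k : ℕ, f ((f ^ k) v) ≠ 0 ∧ f (f ((f ^ k) v)) = 0 := by
  classical
  have hex : ∃ m : ℕ, (f ^ (m + 2)) v = 0 := by
    refine ⟨n, ?_⟩
    rw [pow_add, end_mul_apply]
    -- f^n (f^2 v) = f^2 (f^n v)
    have hc : (f ^ n * f ^ 2) = (f ^ 2 * f ^ n) := (Commute.pow_pow (Commute.refl f) n 2).eq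
    rw [← end_mul_apply, hc, end_mul_apply, hn, map_zero]
  let m := Nat.find hex
  have hm : (f ^ (m + 2)) v = 0 := Nat.find_spec hex
  refine ⟨m, ?_, ?_⟩
  · intro h0
    rcases Nat.eq_zero_or_pos m with hm0 | hmpos
    · apply hv
      have : (f ^ m) v = v := by rw [hm0, pow_zero, end_one_apply]
      rw [this] at h0
      exact h0
    · have hlt : m - 1 < m := Nat.sub_lt hmpos Nat.one_pos
      apply Nat.find_min hex hlt
      have : m - 1 + 2 = m + 1 := by omega
      rw [this, pow_succ', end_mul_apply]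
      exact h0
  · have : (f ^ (m + 2)) v = f (f ((f ^ m) v)) := by
      rw [pow_succ', pow_succ', end_mul_apply, end_mul_apply]
    rw [← this]
    exact hm

section Main

variable (p : ℕ) (V : AddSubgroup J) (cyc : I → ℕ → Prop) (g₀ : I)
  (J0K J1K J2K J0L : AddSubgroup J) (JL : ℕ → AddSubgroup J)

/-- **The TRI contract** (plan v2 §3): the list of statements the local chapters deliver. -/
structure Contract : Prop where
  /-- `V` is `p`-torsion. -/
  tors : ∀ v ∈ V, p • v = 0
  /-- `V` is stable under the wild generator. -/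
  stable : ∀ v ∈ V, g₀ • v ∈ V
  /-- the wild generator has order dividing `p` on `V`. -/
  order : ∀ v ∈ V, g₀ ^ p • v = v
  /-- (T1) a `K₁`-rational vector of `V` lies in `J⁰(K₁)` (slopes vanish since `p ∤ e`; multidegree
  killed by the non-Eisenstein prime and the cuspidal class). -/
  T1 : ∀ v ∈ V, g₀ • v = v → v ∈ J0K
  /-- (T4) over `K₁`: depth `0` (OLD-MAIN + torus has no `p`-torsion). -/
  T4K : ∀ v ∈ V, v ∈ J0K → v ∈ J1K
  /-- (T1') inertia acts on `gr¹` over `K₁` through the cyclotomic character. -/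
  T1' : ∀ (τ : I) (c : ℕ), cyc τ c → ∀ v ∈ J1K, τ • v - c • v ∈ J2K
  /-- (T7) over `K₁`: `J₂(K₁)[p] = 0` (`2 > e/(p-1) = 1`). -/
  T7K : ∀ x ∈ J2K, p • x = 0 → x = 0
  /-- (T2) base change of the filtration: `J₁(K₁) ⊆ J_p(L)`. -/
  T2 : J1K ≤ JL p
  /-- the filtration over `L` is decreasing. -/
  anti : ∀ n : ℕ, JL (n + 1) ≤ JL n
  /-- (T3) wild Picard–Lefschetz + CRT + Eisenstein: if `(g₀ - 1) v` has depth `≥ 2` then `v ∈ J⁰(L)`. -/
  T3 : ∀ v ∈ V, g₀ • v - v ∈ JL 2 → v ∈ J0L
  /-- (T4) over `L`: depth `0`. -/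
  T4L : ∀ v ∈ V, v ∈ J0L → v ∈ JL 1
  /-- (T5) climbing: `[p]` is Frobenius on `grⁿ` for `n < p`, abelian parts killed by the trace,
  Frobenius injective on the toric part. -/
  T5 : ∀ n : ℕ, 1 ≤ n → n < p → ∀ v ∈ V, v ∈ JL n → v ∈ JL (n + 1)
  /-- (T6) the wild generator acts trivially on `gr^p`. -/
  T6 : ∀ v ∈ JL p, g₀ • v - v ∈ JL (p + 1)
  /-- (T7) over `L`: `J_{p+1}(L)[p] = 0`. -/
  T7L : ∀ x ∈ JL (p + 1), p • x = 0 → x = 0

variable {p V cyc g₀ J0K J1K J2K J0L JL}

theorem Contract.anti_le (C : Contract p V cyc g₀ J0K J1K J2K J0L JL) {m n : ℕ} (h : m ≤ n) :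
    JL n ≤ JL m := by
  induction n, h using Nat.le_induction with
  | base => exact le_rfl
  | succ n _ ih => exact (C.anti n).trans ih

theorem Contract.climb (C : Contract p V cyc g₀ J0K J1K J2K J0L JL) {v : J} (hv : v ∈ V)
    (h1 : v ∈ JL 1) : ∀ n : ℕ, 1 ≤ n → n ≤ p → v ∈ JL n := by
  intro n hn
  induction n, hn using Nat.le_induction with
  | base => intro _; exact h1
  | succ n hn ih =>
    intro hle
    exact C.T5 n hn (Nat.lt_of_succ_le hle) v hv (ih (Nat.le_of_succ_le hle))

/-- Step A: the wild generator acts trivially on `V`. -/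
theorem Contract.wild_trivial (C : Contract p V cyc g₀ J0K J1K J2K J0L JL) (hp : p.Prime)
    (hp2 : p ≠ 2) : ∀ v ∈ V, g₀ • v = v := by
  by_contra hne
  have hne' : ∃ v, v ∈ V ∧ g₀ • v ≠ v := by
    by_contra hcon
    exact hne fun v hv => by
      by_contra h
      exact hcon ⟨v, hv, h⟩
  obtain ⟨v, hvV, hv⟩ := hne'
  have hdv : delta g₀ v ≠ 0 := by
    rw [delta_apply]
    exact sub_ne_zero.mpr hv
  have hnil : (delta g₀ ^ p) v = 0 :=
    delta_pow_prime_apply hp hp2 g₀ v (C.tors v hvV) (C.order v hvV)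
  obtain ⟨k, hk1, hk2⟩ := exists_last_iterate (delta g₀) v p hnil hdv
  -- `V` is stable under `delta g₀`
  have hstab : ∀ w ∈ V, delta g₀ w ∈ V := fun w hw => by
    rw [delta_apply]
    exact V.sub_mem (C.stable w hw) hw
  have hpow : ∀ n : ℕ, (delta g₀ ^ n) v ∈ V := by
    intro n
    induction n with
    | zero => rw [pow_zero, end_one_apply]; exact hvV
    | succ n ih =>
      rw [pow_succ', end_mul_apply]
      exact hstab _ ih
  set v2 := (delta g₀ ^ k) v with hv2
  set v1 := delta g₀ v2 with hv1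
  have hv2V : v2 ∈ V := hpow k
  have hv1V : v1 ∈ V := hstab v2 hv2V
  have hv1fix : g₀ • v1 = v1 := by
    have := hk2
    rw [delta_apply] at this
    exact sub_eq_zero.mp this
  have hv1eq : v1 = g₀ • v2 - v2 := delta_apply g₀ v2
  -- `v1` has depth `p` over `L`
  have hv1p : v1 ∈ JL p := C.T2 (C.T4K v1 hv1V (C.T1 v1 hv1V hv1fix))
  have h2p : 2 ≤ p := hp.two_le
  have hv1two : v1 ∈ JL 2 := C.anti_le h2p hv1p
  -- `v2` climbs to depth `p`
  have hv2_0 : v2 ∈ J0L := C.T3 v2 hv2V (hv1eq ▸ hv1two)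
  have hv2_1 : v2 ∈ JL 1 := C.T4L v2 hv2V hv2_0
  have hv2_p : v2 ∈ JL p := C.climb hv2V hv2_1 p hp.one_lt.le le_rfl
  -- hence `v1` has depth `p + 1`, so it vanishes
  have hv1_succ : v1 ∈ JL (p + 1) := hv1eq ▸ C.T6 v2 hv2_p
  exact hk1 (C.T7L v1 hv1_succ (C.tors v1 hv1V))

/-- **TRI**: under the contract, every `τ` acting on `μ_p` by `ζ ↦ ζ ^ c` acts on `V` by the
scalar `c`. -/
theorem Contract.inertia_smul_eq (C : Contract p V cyc g₀ J0K J1K J2K J0L JL) (hp : p.Prime)
    (hp2 : p ≠ 2) (τ : I) (c : ℕ) (hτ : cyc τ c) : ∀ v ∈ V, τ • v = c • v := by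
  intro v hv
  have hfix : g₀ • v = v := C.wild_trivial hp hp2 v hv
  have h1 : v ∈ J1K := C.T4K v hv (C.T1 v hv hfix)
  have h2 : τ • v - c • v ∈ J2K := C.T1' τ c hτ v h1
  have h3 : p • (τ • v - c • v) = 0 := by
    rw [smul_sub, smul_comm p τ v, smul_comm p c v, C.tors v hv, smul_zero, smul_zero, sub_zero]
  exact sub_eq_zero.mp (C.T7K _ h2 h3)

end Main

end Fermat.Agent.M1.Tri.Abstract45
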