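/-
M1 (row 38, S44), chapter TRI -- helper20.

The TRI contract of `Tri/Abstract45` stated over the field `L` ONLY (no tame field `K₁`):

* `WildContract` (`e_L = p (p - 1)`): the filtration `J⁰(L) ⊇ J_1(L) ⊇ J_2(L) ⊇ ⋯` with
  (T3), (T4), (T5), (T6), (T7) over `L` and (T1') AT DEPTH `p` OVER `L`
  (`τ v - c v ∈ J_{p+1}(L)` for `v ∈ J_p(L)`; arithmetic input `ε ^ p ≡ c mod ϖ`, which is
  `Ram/TameEps20.eps_pow_sub_of_cyclo`).  It yields `Abstract45.Contract` with
  `J0K := J1K := JL p`, `J2K := JL (p + 1)`;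
* `TameContract` (`e_L = p - 1`, trivial wild inertia): (T1), (T4), (T1') at depth `1`, (T7) at
  depth `2`.

Both give the conclusion of TRI: `τ v = c v` for all `v ∈ V` whenever `τ ζ = ζ ^ c`.
Mathlib only (plus `Tri/Abstract45`).
-/
import Mathlib
import Fermat.Agent.M1.Tri.Abstract45

set_option autoImplicit false

namespace Fermat.Agent.M1.Tri.ContractL20

open Fermat.Agent.M1.Tri.Abstract45

variable {J : Type*} [AddCommGroup J] {I : Type*} [Group I] [DistribMulAction I J]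

section Defs

variable (p : ℕ) (V : AddSubgroup J) (cyc : I → ℕ → Prop) (g₀ : I)
  (J0L : AddSubgroup J) (JL : ℕ → AddSubgroup J)

/-- The TRI contract in the wild case, over `L` only. -/
structure WildContract : Prop where
  /-- `V` is `p`-torsion. -/
  tors : ∀ v ∈ V, p • v = 0
  /-- `V` is stable under the wild generator. -/
  stable : ∀ v ∈ V, g₀ • v ∈ V
  /-- the wild generator has order dividing `p` on `V`. -/
  order : ∀ v ∈ V, g₀ ^ p • v = v
  /-- the filtration over `L` is decreasing. -/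
  anti : ∀ n : ℕ, JL (n + 1) ≤ JL n
  /-- (T3) wild Picard-Lefschetz. -/
  T3 : ∀ v ∈ V, g₀ • v - v ∈ JL 2 → v ∈ J0L
  /-- (T4) depth zero. -/
  T4L : ∀ v ∈ V, v ∈ J0L → v ∈ JL 1
  /-- (T5) climbing. -/
  T5 : ∀ n : ℕ, 1 ≤ n → n < p → ∀ v ∈ V, v ∈ JL n → v ∈ JL (n + 1)
  /-- (T6) the wild generator acts trivially on `gr^p`. -/
  T6 : ∀ v ∈ JL p, g₀ • v - v ∈ JL (p + 1)
  /-- (T7) `J_{p+1}(L)[p] = 0`. -/
  T7L : ∀ x ∈ JL (p + 1), p • x = 0 → x = 0
  /-- (T1') at depth `p` over `L`: inertia acts on `gr^p` through the cyclotomic character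
  (`ε ^ p ≡ c mod ϖ`). -/
  T1' : ∀ (τ : I) (c : ℕ), cyc τ c → ∀ v ∈ JL p, τ • v - c • v ∈ JL (p + 1)

/-- The TRI contract in the tame case (`e_L = p - 1`). -/
structure TameContract : Prop where
  /-- `V` is `p`-torsion. -/
  tors : ∀ v ∈ V, p • v = 0
  /-- (T1) slopes vanish since `p ∤ e`; multidegree killed by the non-Eisenstein prime. -/
  T1 : ∀ v ∈ V, v ∈ J0L
  /-- (T4) depth zero. -/
  T4 : ∀ v ∈ V, v ∈ J0L → v ∈ JL 1
  /-- (T1') at depth `1`: `ε ≡ c mod ϖ`. -/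
  T1' : ∀ (τ : I) (c : ℕ), cyc τ c → ∀ v ∈ JL 1, τ • v - c • v ∈ JL 2
  /-- (T7) `J_2(L)[p] = 0` (`2 > e / (p - 1) = 1`). -/
  T7 : ∀ x ∈ JL 2, p • x = 0 → x = 0

end Defs

variable {p : ℕ} {V : AddSubgroup J} {cyc : I → ℕ → Prop} {g₀ : I}
  {J0L : AddSubgroup J} {JL : ℕ → AddSubgroup J}

theorem WildContract.climb (C : WildContract p V cyc g₀ J0L JL) {v : J} (hv : v ∈ V)
    (h1 : v ∈ JL 1) : ∀ n : ℕ, 1 ≤ n → n ≤ p → v ∈ JL n := by
  intro n hn
  induction n, hn using Nat.le_induction with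
  | base => intro _; exact h1
  | succ n hn ih =>
    intro hle
    exact C.T5 n hn (Nat.lt_of_succ_le hle) v hv (ih (Nat.le_of_succ_le hle))

/-- A `g₀`-fixed vector of `V` has depth `p` over `L`. -/
theorem WildContract.fixed_mem (C : WildContract p V cyc g₀ J0L JL) (hp1 : 1 ≤ p) {v : J}
    (hv : v ∈ V) (hfix : g₀ • v = v) : v ∈ JL p := by
  have h0 : g₀ • v - v ∈ JL 2 := by
    rw [hfix, sub_self]
    exact (JL 2).zero_mem
  exact C.climb hv (C.T4L v hv (C.T3 v hv h0)) p hp1 le_rfl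

/-- The wild contract over `L` is an instance of the contract of `Tri/Abstract45` with
`J0K := J1K := JL p` and `J2K := JL (p + 1)`. -/
theorem WildContract.toContract (C : WildContract p V cyc g₀ J0L JL) (hp1 : 1 ≤ p) :
    Contract p V cyc g₀ (JL p) (JL p) (JL (p + 1)) J0L JL where
  tors := C.tors
  stable := C.stable
  order := C.order
  T1 := fun _ hv hfix => C.fixed_mem hp1 hv hfix
  T4K := fun _ _ h => h
  T1' := C.T1'
  T7K := C.T7L
  T2 := le_rfl
  anti := C.anti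
  T3 := C.T3
  T4L := C.T4L
  T5 := C.T5
  T6 := C.T6
  T7L := C.T7L

/-- Step A (wild case): the wild generator acts trivially on `V`. -/
theorem WildContract.wild_trivial (C : WildContract p V cyc g₀ J0L JL) (hp : p.Prime)
    (hp2 : p ≠ 2) : ∀ v ∈ V, g₀ • v = v :=
  (C.toContract hp.one_lt.le).wild_trivial hp hp2

/-- **TRI, wild case, over `L` only.** -/
theorem WildContract.inertia_smul_eq (C : WildContract p V cyc g₀ J0L JL) (hp : p.Prime)
    (hp2 : p ≠ 2) (τ : I) (c : ℕ) (hτ : cyc τ c) : ∀ v ∈ V, τ • v = c • v :=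
  (C.toContract hp.one_lt.le).inertia_smul_eq hp hp2 τ c hτ

/-- **TRI, tame case.** -/
theorem TameContract.inertia_smul_eq (C : TameContract p V cyc J0L JL) (τ : I) (c : ℕ)
    (hτ : cyc τ c) : ∀ v ∈ V, τ • v = c • v := by
  intro v hv
  have h1 : v ∈ JL 1 := C.T4 v hv (C.T1 v hv)
  have h2 : τ • v - c • v ∈ JL 2 := C.T1' τ c hτ v h1
  have h3 : p • (τ • v - c • v) = 0 := by
    rw [smul_sub, smul_comm p τ v, smul_comm p c v, C.tors v hv, smul_zero, smul_zero, sub_zero]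
  exact sub_eq_zero.mp (C.T7 _ h2 h3)

/-- **TRI over `L` only**: in either case (wild contract with some wild generator `g₀`, or tame
contract), every `τ` acting on `μ_p` through `ζ ↦ ζ ^ c` acts on `V` by the scalar `c`. -/
theorem inertia_smul_eq_of_wild_or_tame (hp : p.Prime) (hp2 : p ≠ 2)
    (h : (∃ g₀ : I, WildContract p V cyc g₀ J0L JL) ∨ TameContract p V cyc J0L JL)
    (τ : I) (c : ℕ) (hτ : cyc τ c) : ∀ v ∈ V, τ • v = c • v := by
  rcases h with ⟨g₀, C⟩ | C
  · exact C.inertia_smul_eq hp hp2 τ c hτ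
  · exact C.inertia_smul_eq τ c hτ

end Fermat.Agent.M1.Tri.ContractL20
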