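/-
Program M1 (S44), chapter TRI (helper13): **TRI over ONE number field `L` carrying `PeuRamData`.**

Pure composition of landed theorems:
* `Car/ContractNum15.inertia_smul_eq_of_wild_numData'`-type statements (helper15, on top of helper43's
  `ContractInst43`): the TRI contract over a nodal two-chart model with thick nodes;
* `Mon/InertiaInst13` (helper13): `InertiaAut`, `CycAt`, `hθ`, `hθ₀` for `galK L N τ`, `τ ∈ I_A`,
  from helper20's `PeuRamData p A L ϖ`;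
* `Tri/Transport53` (helper53): `V_L := Y.comap (bcPic0 N L)`, `tors_VL`, `stable_VL`, `transfer`.

`tri_wild` (`e = p (p - 1)`, needs one `g ∈ I_A` fixing `μ_p` and non trivial on `L`) and `tri_tame`
(`e = p - 1`): every `τ ∈ I_A` with `τ ζ = ζ ^ c` acts on `Y ⊆ J₀(N)(ℚ̄)` (finite level, rational
over `L`, `p`-torsion, Galois stable) by the scalar `c`, PROVIDED (T4) and `htor` hold for `V_L`.
-/
import Mathlib
import Fermat.Agent.M1.Mon.InertiaInst13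
import Fermat.Agent.M1.Car.ContractNum15
import Fermat.Agent.M1.Tri.Transport53

set_option autoImplicit false
set_option linter.unusedSectionVars false

noncomputable section

open HahnSeries AlgebraicCurve ModularCurve

namespace Fermat.Agent.M1.Tri.CoreL13

open Fermat.Agent.RED.Interface4 Fermat.Agent.RED.PUR.GaussGen8 Fermat.Agent.RED.BASE.EtaQuot12
  Fermat.Agent.ES.N34.NodalCore13 Fermat.Agent.ES.N34.NumData13 Fermat.Agent.ES.N34.GalBase21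
  Fermat.Agent.ES.N34
  Fermat.Agent.M1.Car.Defs43 Fermat.Agent.M1.Mod.GalDepth13 Fermat.Agent.M1.Mon.GalInst13
  Fermat.Agent.M1.Mon.InertiaInst13 Fermat.Agent.M1.Car.ContractInst43
  Fermat.Agent.M1.Car.ContractNum15 Fermat.Agent.M1.Car.TorsInst15 Fermat.Agent.M1.Car.NodeFrame58
  Fermat.Agent.M1.Fib.Constants98 Fermat.Agent.M1.Pic2.Defs60
  Fermat.Agent.M1.Car.RatClass25 Fermat.Agent.M1.Tri.Transport53
  Fermat.Agent.M1.Ram.PeuRamDef20 Fermat.Agent.M1.Ram.WildCyclic20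

local notation "GQ" => (Qbar ≃ₐ[ℚ] Qbar)

variable {A : ValuationSubring Qbar} {L : IntermediateField ℚ Qbar} [Normal ℚ L]
  [FiniteDimensional ℚ L] (M' p : ℕ) [NeZero M'] [NeZero p]

/-- `(galK g) ^ p` is trivial for `g ∈ I_A` fixing `μ_p`. -/
theorem galK_pow_prime_eq_one' (M : ℕ) {ϖ' : ↥(AK A L)} (hd' : PeuRamData p A L ϖ')
    (hp' : p.Prime) {g : GQ} (hg : g ∈ A.inertiaSubgroupIn ℚ) (hgμ : FixesMu p g) :
    galK L M g ^ p = 1 := by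
  have h1 : resK L g ^ p = 1 := resK_pow_prime_eq_one hd' hp' hg hgμ
  unfold galK
  rw [← map_pow, h1, map_one]

variable {n₀ e₀ : ℕ} [NeZero n₀] {ϖ : ↥(AK A L)} (hπ : IsUnif (AK A L) ϖ)
  (hE : FK (M' * p) L ≤ fracField (AK A L)) (ht : tq (↥L) n₀ e₀ ∈ FK M' L)
  (Num : NodalNumData ↥(AK A L) ↥L ↥(FK (M' * p) L) ϖ (ModelDefs9.tN p ht)
    (ModelDefs9.B0 A p ht) (ModelDefs9.B1 A p ht) (ModelDefs9.O1 M' p hπ hE)
    (ModelDefs9.O2 M' p hπ hE))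
  (hac1 : ResidueAlgClosed ϖ (ModelDefs9.O1 M' p hπ hE))
  (hac2 : ResidueAlgClosed ϖ (ModelDefs9.O2 M' p hπ hE))
  {e : ℕ} (hth : ThickNodes ϖ (ModelDefs9.B0 A p ht) (ModelDefs9.B1 A p ht)
    (ModelDefs9.O1 M' p hπ hE) (ModelDefs9.O2 M' p hπ hE) e)
  (hd : PeuRamData p A L ϖ) (hp : p.Prime)
  {Y : AddSubgroup (JZero (M' * p))} (hY : Y ≤ (bcPic0 (M' * p) L).range)
  (htors : ∀ y ∈ Y, p • y = 0) (hst : ∀ σ : GQ, ∀ y ∈ Y, σ • y ∈ Y)

include hth hd hp hY htors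

section Wild

include hst

set_option synthInstance.maxHeartbeats 400000 in
/-- **TRI over `L`, wild case** (`e_L = p (p - 1)`). -/
theorem tri_wild (hp2 : p ≠ 2) (he : e = p * (p - 1)) (u : (↥(AK A L))ˣ)
    (hpe : ((p : ℕ) : ↥(AK A L)) = ϖ ^ e * u)
    (hchar : ∀ n : ℤ, ϖ ∣ (n : ↥(AK A L)) → (p : ℤ) ∣ n)
    (hperf : ∀ r : ↥(AK A L), ∃ ρ : ↥(AK A L), ϖ ∣ ρ ^ p - r)
    (hram : Associated (ϖ ^ (p * (p - 1))) ((p : ℕ) : ↥(AK A L)))
    {g : GQ} (hg : g ∈ A.inertiaSubgroupIn ℚ) (hgμ : FixesMu p g) (hgne : resK L g ≠ 1)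
    (T4 : ∀ v ∈ VL (M' * p) L Y,
      v ∈ Cart ϖ (ModelDefs9.B0 A p ht) (ModelDefs9.B1 A p ht) (ModelDefs9.O1 M' p hπ hE)
        (ModelDefs9.O2 M' p hπ hE) (pi_mem_O1 Num.model) (pi_mem_O2 Num.model) 0 →
      v ∈ Cart ϖ (ModelDefs9.B0 A p ht) (ModelDefs9.B1 A p ht) (ModelDefs9.O1 M' p hπ hE)
        (ModelDefs9.O2 M' p hπ hE) (pi_mem_O1 Num.model) (pi_mem_O2 Num.model) 1)
    (htor : ∀ n : ℕ, 1 ≤ n → n < p → ∀ v ∈ VL (M' * p) L Y,
      v ∈ Cart ϖ (ModelDefs9.B0 A p ht) (ModelDefs9.B1 A p ht) (ModelDefs9.O1 M' p hπ hE)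
        (ModelDefs9.O2 M' p hπ hE) (pi_mem_O1 Num.model) (pi_mem_O2 Num.model) n →
      ∃ D : Divisor.degZero (K := ↥L) (F := ↥(FK (M' * p) L)), Pic0.mk D = v ∧
        HasLevel ϖ (ModelDefs9.B0 A p ht) (ModelDefs9.B1 A p ht) (ModelDefs9.O1 M' p hπ hE)
          (ModelDefs9.O2 M' p hπ hE) n (D : Divisor ↥L ↥(FK (M' * p) L)) ∧
        ∃ c, HasLead (algebraMap ↥(AK A L) ↥(FK (M' * p) L) ϖ) n
          ((torsFrame_of_numData Num hac1 hac2
            (Fermat.Agent.M1.Fib.NodeExists61.hasNode_of_numData Num)).pair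
              (D : Divisor ↥L ↥(FK (M' * p) L))) c ∧
          Pic2.ToricPic15.IsToric ϖ (ModelDefs9.B0 A p ht) (ModelDefs9.B1 A p ht)
            (ModelDefs9.O1 M' p hπ hE) (ModelDefs9.O2 M' p hπ hE) c)
    {τ : GQ} (hτ : τ ∈ A.inertiaSubgroupIn ℚ) {ζ : Qbar} (hζ : ζ ^ p = 1) (hζ1 : ζ ≠ 1) {c : ℕ}
    (hc : τ ζ = ζ ^ c) : ∀ y ∈ Y, τ • y = c • y := by
  obtain ⟨θ₀, hθ₀, hθ⟩ := exists_theta M' p hd hg hgμ hgne
  refine transfer hY τ c ?_
  have key := inertia_smul_eq_of_wild_numData Num hac1 hac2 hth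
    (hπ1 := pi_mem_O1 Num.model) (hπ2 := pi_mem_O2 Num.model) hp hp2 he u hpe hchar hperf
    (VL (M' * p) L Y) (tors_VL htors) (g₀ := galK L (M' * p) g)
    (stable_VL hst g)
    (fun v _ => by rw [galK_pow_prime_eq_one' p (M' * p) hd hp hg hgμ, one_smul])
    (inertiaAut_two M' p hπ hE ht Num.model hd hg hgμ) hθ hθ₀ T4 htor
    (galK L (M' * p) τ) c (cycAt_wild M' p hπ hE ht Num.model hd hp hram hτ hζ hζ1 hc)
  exact key

end Wild

include hac1 hac2 in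
set_option synthInstance.maxHeartbeats 400000 in
/-- **TRI over `L`, tame case** (`e_L = p - 1`). -/
theorem tri_tame (he : e = p - 1) (u : (↥(AK A L))ˣ)
    (hpe : ((p : ℕ) : ↥(AK A L)) = ϖ ^ e * u)
    (hram : Associated (ϖ ^ (p - 1)) ((p : ℕ) : ↥(AK A L)))
    (T4 : ∀ v ∈ VL (M' * p) L Y,
      v ∈ Cart ϖ (ModelDefs9.B0 A p ht) (ModelDefs9.B1 A p ht) (ModelDefs9.O1 M' p hπ hE)
        (ModelDefs9.O2 M' p hπ hE) (pi_mem_O1 Num.model) (pi_mem_O2 Num.model) 0 →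
      v ∈ Cart ϖ (ModelDefs9.B0 A p ht) (ModelDefs9.B1 A p ht) (ModelDefs9.O1 M' p hπ hE)
        (ModelDefs9.O2 M' p hπ hE) (pi_mem_O1 Num.model) (pi_mem_O2 Num.model) 1)
    {τ : GQ} (hτ : τ ∈ A.inertiaSubgroupIn ℚ) {ζ : Qbar} (hζ : ζ ^ p = 1) (hζ1 : ζ ≠ 1) {c : ℕ}
    (hc : τ ζ = ζ ^ c) : ∀ y ∈ Y, τ • y = c • y := by
  refine transfer hY τ c ?_
  have key := inertia_smul_eq_of_tame_numData Num hac1 hac2 hth
    (hπ1 := pi_mem_O1 Num.model) (hπ2 := pi_mem_O2 Num.model) hp he u hpe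
    (VL (M' * p) L Y) (tors_VL htors) T4
    (galK L (M' * p) τ) c (cycAt_tame M' p hπ hE ht Num.model hd hp hram hτ hζ hζ1 hc)
  exact key

end Fermat.Agent.M1.Tri.CoreL13
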