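/-
M1 (row 38, S44), chapter TRI — helper43.

**FROM THE FIELDS `L` TO `ℚ̄`: the conclusion of CORE (`hcore` of `Glue/FreyEndGame73`) from the TRI
theorem over every peu ramifié field.**

`V ⊆ J₀(N)(ℚ̄)` any subgroup.  Suppose that every finite normal `L₀ ⊇ K₀` carrying
`PeuRamData p A L₀ ϖ₀` is contained in a finite normal `L` over which every inertia element `τ` with `τ = ζ ↦ ζ ^ c` on `μ_p` acts on the `L`-rational
classes of `V` (`v : Pic⁰(L·F_N)` with `bcPic0 v ∈ V`) by the scalar `c`.  Then for every normal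
subgroup `H` with `PeuRam p A H`, `τ` acts on the `H`-invariants of `V` by `c`.
Ingredients: `Ram/Enlarge73.peuRam_enlarge` (`K₀ ≤ L`), `Car/RatMain25.mem_range_bcPic0_iff`
(fixed classes are rational), `bcPic0_smul` (equivariance).
-/
import Mathlib
import Fermat.Agent.M1.Car.RatMain25
import Fermat.Agent.M1.Ram.Enlarge73

set_option autoImplicit false
set_option linter.unusedSectionVars false

noncomputable section

open AlgebraicCurve ModularCurve

namespace Fermat.Agent.M1.Tri.Descent43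

open Fermat.Agent.RED.Interface4 Fermat.Agent.M1.Ram.PeuRamDef20
  Fermat.Agent.M1.Car.RatClass25 Fermat.Agent.M1.Car.RatMain25

/-- **CORE's conclusion over `ℚ̄` from TRI over the peu ramifié fields.**  The hypothesis `hL` asks,
for every peu ramifié `L₀ ⊇ K₀`, for SOME finite normal `L ⊇ L₀` over which TRI holds (so that the
provider may enlarge `L₀` by roots of unity of order prime to `p`: RAT-NODES). -/
theorem hcore_of_fields {p : ℕ} (hp : p.Prime) {A : ValuationSubring Qbar}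
    (hA : A.LiesOverPrime p) (N : ℕ) [NeZero N] (V : AddSubgroup (JZero N))
    (K₀ : IntermediateField ℚ Qbar) [Normal ℚ K₀] [FiniteDimensional ℚ K₀]
    (hK₀ : ∀ τ ∈ A.inertiaSubgroupIn ℚ, ∀ x ∈ K₀, τ x = x)
    (hL : ∀ (L₀ : IntermediateField ℚ Qbar) [Normal ℚ L₀] (ϖ₀ : AK A L₀),
      PeuRamData p A L₀ ϖ₀ → K₀ ≤ L₀ →
      ∃ (L : IntermediateField ℚ Qbar) (_ : Normal ℚ L) (_ : FiniteDimensional ℚ L), L₀ ≤ L ∧
        ∀ τ ∈ A.inertiaSubgroupIn ℚ, ∀ c : ℕ, (∀ ζ : Qbar, ζ ^ p = 1 → τ ζ = ζ ^ c) →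
        ∀ v : Pic0 L (FK N L), bcPic0 N L v ∈ V → galK N L τ • v = c • v) :
    ∀ H : Subgroup (Qbar ≃ₐ[ℚ] Qbar), H.Normal → PeuRam p A H →
      ∀ τ ∈ A.inertiaSubgroupIn ℚ, ∀ c : ℕ, (∀ ζ : Qbar, ζ ^ p = 1 → τ ζ = ζ ^ c) →
        ∀ y ∈ V, (∀ h ∈ H, h • y = y) → τ • y = c • y := by
  intro H _ hH τ hτ c hc y hy hfix
  obtain ⟨L₀, hL₀n, ϖ₀, hd, hLH, hKL⟩ :=
    Fermat.Agent.M1.Ram.Enlarge73.peuRam_enlarge hH hp hA K₀ hK₀
  obtain ⟨L, hLn, hLfin, hle, hTRI⟩ := hL L₀ ϖ₀ hd hKL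
  -- `y` is rational over `L`
  have hyL : y ∈ (bcPic0 N L).range := by
    rw [mem_range_bcPic0_iff]
    intro σ hσ
    exact hfix σ (hLH ((IntermediateField.mem_fixingSubgroup_iff L₀ σ).mpr
      (fun a ha => hσ a (hle ha))))
  obtain ⟨v, rfl⟩ := hyL
  have h1 := hTRI τ hτ c hc v hy
  rw [← bcPic0_smul N L τ v]
  show bcPic0 N L (galK N L τ • v) = c • bcPic0 N L v
  rw [h1, map_nsmul]

end Fermat.Agent.M1.Tri.Descent43
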