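/-
M1 (row 38, S44), chapter TRI — helper43.

**THE `σ`-SIDE OF THE TRI CONTRACT FOR THE MODEL OF RECORD OVER A PEU RAMIFIÉ FIELD `L`.**

`L / ℚ` finite normal with `PeuRamData p A L ϖ` (chapter RAM), `Mod` the nodal two-chart model of
`X₀(M' q)` over `A ∩ L` in the names of `ES/N34/ModelDefs9`.  For `τ` in the inertia group of `A`
the semilinear automorphism `galK L (M' * q) τ` of `F_L` satisfies the hypotheses of
`Car/ContractInst43`:

* `ramDepth_one`, `ramDepth_two` : depth of `τ` on `A ∩ L` (`GalDepth13.RamDepth`);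
* `inertiaAut_of_ramDepth` : `ContractInst43.InertiaAut` from the depth;
* `cycAt_of_cyclo` : `ContractInst43.CycAt` (`m = p` wild, `m = 1` tame) from `τ ζ = ζ ^ c`;
* `exists_wild_element` : when `ϖ ^ (p (p - 1)) ~ p` there is `g₀ ∈ I_A` fixing `μ_p` with
  `g₀|_L ≠ 1` (Cauchy), and `wild_theta` : `g₀ ϖ = ϖ (1 + θ₀ ϖ)`, `ϖ ∤ θ₀`.
-/
import Mathlib
import Fermat.Agent.M1.Car.ContractInst43
import Fermat.Agent.M1.Mon.GalInst13
import Fermat.Agent.M1.Ram.TameEps20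
import Fermat.Agent.M1.Ram.WildCyclic20

set_option autoImplicit false
set_option linter.unusedSectionVars false

noncomputable section

open HahnSeries AlgebraicCurve ModularCurve

namespace Fermat.Agent.M1.Tri.GalData43

open Fermat.Agent.RED.Interface4 Fermat.Agent.RED.PUR.GaussGen8 Fermat.Agent.RED.BASE.EtaQuot12
  Fermat.Agent.ES.N34.GalBase21 Fermat.Agent.ES.N34.NodalCore13 Fermat.Agent.ES.N34
  Fermat.Agent.M1.Car.Defs43 Fermat.Agent.M1.Car.ContractInst43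
  Fermat.Agent.M1.Mon.RamDepth13 Fermat.Agent.M1.Mod.GalDepth13 Fermat.Agent.M1.Mon.GalInst13
  Fermat.Agent.M1.Ram.PeuRamDef20 Fermat.Agent.M1.Ram.PeuRamLemmas20 Fermat.Agent.M1.Ram.RamIdx20
  Fermat.Agent.M1.Ram.WildCyclic20 Fermat.Agent.M1.Ram.TameEps20

/-! ### Roots of unity (Mathlib only) -/

section Mu

theorem pow_eq_pow_iff_of_primitiveRoot {F : Type*} [Field F] {p : ℕ} (hp0 : p ≠ 0) {ζ₀ : F}
    (hζ₀ : IsPrimitiveRoot ζ₀ p) (a b : ℕ) : ζ₀ ^ a = ζ₀ ^ b ↔ a ≡ b [MOD p] := by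
  obtain ⟨u, rfl⟩ := hζ₀.isUnit hp0
  have hord : orderOf u = p := by rw [← orderOf_units]; exact hζ₀.eq_orderOf.symm
  rw [← hord, ← pow_eq_pow_iff_modEq, ← Units.val_pow_eq_pow_val, ← Units.val_pow_eq_pow_val,
    Units.val_inj]

/-- An automorphism of a field whose `p`-th power fixes a primitive `p`-th root of unity fixes all
`p`-th roots of unity (`p` prime: an element of order `p` of `(ℤ/p)ˣ` is trivial). -/
theorem fixes_mu_of_pow_fixes {F : Type*} [Field F] {p : ℕ} (hp : p.Prime) (σ : F ≃+* F)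
    {ζ₀ : F} (hζ₀ : IsPrimitiveRoot ζ₀ p) (hfix : (σ ^ p) ζ₀ = ζ₀) :
    ∀ ζ : F, ζ ^ p = 1 → σ ζ = ζ := by
  have : Fact p.Prime := ⟨hp⟩
  have h1 : (σ ζ₀) ^ p = 1 := by rw [← map_pow, hζ₀.pow_eq_one, map_one]
  obtain ⟨c, -, hc⟩ := hζ₀.eq_pow_of_pow_eq_one h1
  have h2 : ∀ k : ℕ, (σ ^ k) ζ₀ = ζ₀ ^ (c ^ k) := by
    intro k
    induction k with
    | zero => simp
    | succ k ih =>
      rw [pow_succ', RingAut.mul_apply, ih, map_pow, ← hc, ← pow_mul, pow_succ, mul_comm]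
  have h3 : ζ₀ ^ (c ^ p) = ζ₀ ^ 1 := by rw [← h2 p, hfix, pow_one]
  have h4 : c ^ p ≡ 1 [MOD p] := (pow_eq_pow_iff_of_primitiveRoot hp.ne_zero hζ₀ _ _).mp h3
  have h5 : c ≡ 1 [MOD p] := by
    rw [← ZMod.natCast_eq_natCast_iff] at h4 ⊢
    push_cast at h4 ⊢
    rwa [ZMod.pow_card] at h4
  have h6 : σ ζ₀ = ζ₀ := by
    rw [← hc]
    have : ζ₀ ^ c = ζ₀ ^ 1 := (pow_eq_pow_iff_of_primitiveRoot hp.ne_zero hζ₀ _ _).mpr h5
    rw [this, pow_one]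
  intro ζ hζ
  obtain ⟨j, -, rfl⟩ := hζ₀.eq_pow_of_pow_eq_one hζ
  rw [map_pow, h6]

theorem toRingEquiv_pow_apply {F : Type*} [Field F] [Algebra ℚ F] (τ : F ≃ₐ[ℚ] F) (k : ℕ)
    (x : F) : (τ.toRingEquiv ^ k) x = (τ ^ k) x := by
  induction k generalizing x with
  | zero => rfl
  | succ k ih =>
    rw [pow_succ, pow_succ, RingAut.mul_apply, AlgEquiv.mul_apply, ih]
    rfl

/-- A primitive `p`-th root of unity in `ℚ̄`. -/
theorem exists_primitiveRoot_Qbar {p : ℕ} (hp : p.Prime) : ∃ ζ : Qbar, IsPrimitiveRoot ζ p := by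
  have : NeZero (p : Qbar) := ⟨by exact_mod_cast hp.ne_zero⟩
  exact HasEnoughRootsOfUnity.exists_primitiveRoot Qbar p

end Mu

variable {A : ValuationSubring Qbar} {L : IntermediateField ℚ Qbar} [Normal ℚ L]

/-! ### Depth -/

section Depth

variable {p : ℕ} {ϖ : AK A L}

/-- the uniformiser of `PeuRamData` is a uniformiser in the sense of `GaussGen8.IsUnif`. -/
theorem isUnif_of_peuRamData (hd : PeuRamData p A L ϖ) (hp : p.Prime) (hA : A.LiesOverPrime p) :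
    IsUnif (AK A L) ϖ := by
  have := hd.finite
  have hdvr : IsDiscreteValuationRing ↥(AK A L) :=
    Fermat.Agent.RED.DESC.NumberFieldDVR27.isDiscreteValuationRing_AK A L hp.ne_zero hA
  have hmax : IsLocalRing.maximalIdeal ↥(AK A L) = Ideal.span {ϖ} := by
    ext x
    rw [IsLocalRing.mem_maximalIdeal, mem_nonunits_iff, hd.unif x, Ideal.mem_span_singleton]
  exact isUnif_of_irreducible (AK A L)
    ((IsDiscreteValuationRing.irreducible_iff_uniformizer ϖ).mpr hmax)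

/-- every element of the inertia group has depth `≥ 1` on `A ∩ L`. -/
theorem ramDepth_one (hd : PeuRamData p A L ϖ) {τ : Qbar ≃ₐ[ℚ] Qbar}
    (hτ : τ ∈ A.inertiaSubgroupIn ℚ) : RamDepth A L ϖ 1 τ := by
  intro a
  obtain ⟨b, hb⟩ := tame_depth hd hτ a
  refine ⟨b, ?_⟩
  rw [hb, pow_one]
  rfl

/-- the elements of the inertia group fixing `μ_p` have depth `≥ 2` on `A ∩ L`. -/
theorem ramDepth_two (hd : PeuRamData p A L ϖ) {τ : Qbar ≃ₐ[ℚ] Qbar}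
    (hτ : τ ∈ A.inertiaSubgroupIn ℚ) (hμ : FixesMu p τ) : RamDepth A L ϖ 2 τ := by
  intro a
  obtain ⟨b, hb⟩ := hd.depth τ hτ hμ a
  refine ⟨b, ?_⟩
  rw [hb]
  rfl

end Depth

/-! ### `InertiaAut` and `CycAt` for the model of record -/

section Model

variable (M' q : ℕ) [NeZero M'] [NeZero q]

set_option synthInstance.maxHeartbeats 400000 in
/-- **`InertiaAut` from the depth**: `τ ∈ I_A` of depth `m` on `A ∩ L` acts on the model of record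
as an inertia automorphism of depth `m`. -/
theorem inertiaAut_of_ramDepth {n₀ e : ℕ} [NeZero n₀] {τ : Qbar ≃ₐ[ℚ] Qbar}
    (hτ : τ ∈ A.inertiaSubgroupIn ℚ) {π : ↥(AK A L)} (hπ : IsUnif (AK A L) π) {m : ℕ}
    (hm : RamDepth A L π m τ) (hE : FK (M' * q) L ≤ fracField (AK A L))
    (ht : tq (↥L) n₀ e ∈ FK M' L)
    (Mod : NodalTwoChartModel ↥(AK A L) ↥(FK (M' * q) L) π (ModelDefs9.tN q ht)
      (ModelDefs9.B0 A q ht) (ModelDefs9.B1 A q ht) (ModelDefs9.O1 M' q hπ hE)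
      (ModelDefs9.O2 M' q hπ hE)) :
    InertiaAut (K := ↥L) π (ModelDefs9.B0 A q ht) (ModelDefs9.B1 A q ht)
      (ModelDefs9.O1 M' q hπ hE) (ModelDefs9.O2 M' q hπ hE) (galK L (M' * q) τ) m := by
  obtain ⟨h0, h0'⟩ := pres_model M' q hτ hπ hE ht Mod _ (Or.inl rfl)
  obtain ⟨h1, h1'⟩ := pres_model M' q hτ hπ hE ht Mod _ (Or.inr rfl)
  exact
    { pres0 := h0
      pres0' := h0'
      pres1 := h1
      pres1' := h1'
      ram1 := fun y hy => (isRamAt_O1 M' q hτ hπ hm hE).sub_mem y hy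
      ram2 := fun y hy => (isRamAt_O2 M' q hτ hπ hm hE).sub_mem y hy }

set_option synthInstance.maxHeartbeats 400000 in
/-- **`CycAt` from the cyclotomic character**: if `τ ∈ I_A` raises the `p`-th roots of unity to the
power `c`, then `galK τ` satisfies `CycAt` at depth `p` in the wild case (`ϖ ^ (p (p - 1)) ~ p`)
and at depth `1` in the tame case (`ϖ ^ (p - 1) ~ p`). -/
theorem cycAt_of_cyclo {p : ℕ} {ϖ : ↥(AK A L)} (hd : PeuRamData p A L ϖ) (hp : p.Prime)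
    {n₀ e : ℕ} [NeZero n₀] {τ : Qbar ≃ₐ[ℚ] Qbar} (hτ : τ ∈ A.inertiaSubgroupIn ℚ)
    {c : ℕ} (hc : ∀ ζ : Qbar, ζ ^ p = 1 → τ ζ = ζ ^ c)
    (hπ : IsUnif (AK A L) ϖ) (hE : FK (M' * q) L ≤ fracField (AK A L))
    (ht : tq (↥L) n₀ e ∈ FK M' L)
    (Mod : NodalTwoChartModel ↥(AK A L) ↥(FK (M' * q) L) ϖ (ModelDefs9.tN q ht)
      (ModelDefs9.B0 A q ht) (ModelDefs9.B1 A q ht) (ModelDefs9.O1 M' q hπ hE)
      (ModelDefs9.O2 M' q hπ hE)) :
    (Associated (ϖ ^ (p * (p - 1))) ((p : ℕ) : AK A L) →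
      CycAt (K := ↥L) ϖ (ModelDefs9.B0 A q ht) (ModelDefs9.B1 A q ht)
        (ModelDefs9.O1 M' q hπ hE) (ModelDefs9.O2 M' q hπ hE) p (galK L (M' * q) τ) c) ∧
    (Associated (ϖ ^ (p - 1)) ((p : ℕ) : AK A L) →
      CycAt (K := ↥L) ϖ (ModelDefs9.B0 A q ht) (ModelDefs9.B1 A q ht)
        (ModelDefs9.O1 M' q hπ hE) (ModelDefs9.O2 M' q hπ hE) 1 (galK L (M' * q) τ) c) := by
  have hτd := mem_decomposition_of_mem_inertia A hτ
  have hI := inertiaAut_of_ramDepth M' q hτ hπ (ramDepth_one hd hτ) hE ht Mod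
  obtain ⟨ζ, hζ⟩ := exists_primitiveRoot_Qbar hp
  have hζ1 : ζ ≠ 1 := hζ.ne_one hp.one_lt
  obtain ⟨ε, -, hε⟩ := exists_eps hd hp hτ
  obtain ⟨hw, htame⟩ := eps_pow_sub_of_cyclo hd hp hτ hζ.pow_eq_one hζ1 c (hc ζ hζ.pow_eq_one) hε
  -- the action on `ϖ` in the function field
  have hsmul : galK L (M' * q) τ • (algebraMap ↥(AK A L) ↥(FK (M' * q) L) ϖ) =
      algebraMap ↥(AK A L) ↥(FK (M' * q) L) ϖ * algebraMap ↥(AK A L) ↥(FK (M' * q) L) ε := by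
    rw [galK_smul_algebraMap (M' * q) hτd ϖ, ← map_mul]
    congr 1
  -- the congruence in the function field
  have hcong : ∀ m : ℕ, (∃ d : AK A L, ε ^ m - c = ϖ * d) →
      ∃ d : ↥(AK A L), algebraMap ↥(AK A L) ↥(FK (M' * q) L) ε ^ m - ((c : ℕ) : ↥(FK (M' * q) L)) =
        algebraMap ↥(AK A L) ↥(FK (M' * q) L) ϖ * algebraMap ↥(AK A L) ↥(FK (M' * q) L) d := by
    rintro m ⟨d, hd'⟩
    refine ⟨d, ?_⟩
    rw [← map_pow, ← map_natCast (algebraMap ↥(AK A L) ↥(FK (M' * q) L)) c, ← map_sub, ← map_mul,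
      hd']
  have hmk : ∀ m : ℕ, (∃ d : AK A L, ε ^ m - c = ϖ * d) →
      CycAt (K := ↥L) ϖ (ModelDefs9.B0 A q ht) (ModelDefs9.B1 A q ht)
        (ModelDefs9.O1 M' q hπ hE) (ModelDefs9.O2 M' q hπ hE) m (galK L (M' * q) τ) c := by
    intro m hm
    obtain ⟨d, hd'⟩ := hcong m hm
    exact ⟨hI, _, Mod.le_O1_0 _ (Subalgebra.algebraMap_mem _ ε),
      Mod.le_O2_0 _ (Subalgebra.algebraMap_mem _ ε), hsmul,
      ⟨_, Mod.le_O1_0 _ (Subalgebra.algebraMap_mem _ d), hd'⟩,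
      ⟨_, Mod.le_O2_0 _ (Subalgebra.algebraMap_mem _ d), hd'⟩⟩
  exact ⟨fun h => hmk p (hw h), fun h => hmk 1 (htame h)⟩

end Model

/-! ### The wild element -/

section Wild

variable {p : ℕ} {ϖ : AK A L}

/-- **A genuinely wild inertia element**: if `ϖ ^ (p (p - 1)) ~ p` there is `g₀ ∈ I_A` fixing `μ_p`
and acting non-trivially on `L`. -/
theorem exists_wild_element (hd : PeuRamData p A L ϖ) (hp : p.Prime) (hA : A.LiesOverPrime p)
    (hwild : Associated (ϖ ^ (p * (p - 1))) ((p : ℕ) : AK A L)) :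
    ∃ g₀ ∈ A.inertiaSubgroupIn ℚ, FixesMu p g₀ ∧ resK L g₀ ≠ 1 ∧ resK L g₀ ^ p = 1 := by
  have hfin := hd.finite
  have : Fact p.Prime := ⟨hp⟩
  have hcard : Nat.card (inertiaImage A L) = p * (p - 1) :=
    card_inertiaImage A L hp hA hd.unif hwild
  obtain ⟨g, hg⟩ := exists_prime_orderOf_dvd_card' (G := inertiaImage A L) p
    (by rw [hcard]; exact dvd_mul_right p _)
  obtain ⟨τ, hτ, hτg⟩ := (mem_inertiaImage A L).mp g.2
  have hgp : (g : L ≃ₐ[ℚ] L) ^ p = 1 := by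
    have := pow_orderOf_eq_one g
    rw [hg] at this
    exact_mod_cast congrArg (fun x : inertiaImage A L => (x : L ≃ₐ[ℚ] L)) this
  have hg1 : (g : L ≃ₐ[ℚ] L) ≠ 1 := by
    intro h
    have : g = 1 := Subtype.ext h
    rw [this, orderOf_one] at hg
    exact hp.one_lt.ne hg
  refine ⟨τ, hτ, ?_, by rw [hτg]; exact hg1, by rw [hτg]; exact hgp⟩
  -- `τ` fixes `μ_p`
  obtain ⟨ζ₀, hζ₀⟩ := exists_primitiveRoot_Qbar hp
  have hζL : ζ₀ ∈ L := hd.mu ζ₀ hζ₀.pow_eq_one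
  have hτp : (τ ^ p) ζ₀ = ζ₀ := by
    have h1 : resK L (τ ^ p) = 1 := by
      rw [show resK L (τ ^ p) = resK L τ ^ p from map_pow (resKHom L) τ p, hτg, hgp]
    have h2 := coe_resK L (τ ^ p) ⟨ζ₀, hζL⟩
    rw [h1] at h2
    exact h2.symm
  intro ζ hζ
  exact fixes_mu_of_pow_fixes hp (τ : Qbar ≃ₐ[ℚ] Qbar).toRingEquiv hζ₀
    (by rw [toRingEquiv_pow_apply]; exact hτp) ζ hζ

/-- the action of a wild element on the uniformiser: `g₀ ϖ = ϖ (1 + θ₀ ϖ)` with `ϖ ∤ θ₀`. -/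
theorem wild_theta (hd : PeuRamData p A L ϖ) {g₀ : Qbar ≃ₐ[ℚ] Qbar}
    (hg₀ : g₀ ∈ A.inertiaSubgroupIn ℚ) (hμ : FixesMu p g₀) (hne : resK L g₀ ≠ 1) (M : ℕ) :
    ∃ θ₀ : ↥(AK A L), ¬ ϖ ∣ θ₀ ∧
      galK L M g₀ • (algebraMap ↥(AK A L) ↥(FK M L) ϖ) =
        algebraMap ↥(AK A L) ↥(FK M L) ϖ *
          (1 + algebraMap ↥(AK A L) ↥(FK M L) θ₀ * algebraMap ↥(AK A L) ↥(FK M L) ϖ ^ 1) := by
  obtain ⟨θ₀, hθ₀, hsm⟩ := smul_pi_model (A := A) (K := L) M hg₀ (b := 1)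
    (ramDepth_two hd hg₀ hμ)
  refine ⟨θ₀, ?_, hsm⟩
  apply not_dvd_theta hθ₀
  rintro ⟨c, hc⟩
  exact hd.break1 g₀ hg₀ hμ hne ⟨c, by rw [hc]; rfl⟩

end Wild

end Fermat.Agent.M1.Tri.GalData43
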