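/-
M1 (row 38, S44), chapter TRI — helper43.

**TRI OVER ONE PEU RAMIFIÉ FIELD `L`, FOR THE MODEL OF RECORD.**

`L / ℚ` finite normal with `PeuRamData p A L ϖ` (chapter RAM); `N` the nodal numerical data of
`X₀(M' q)` over `A ∩ L` in the names of `ES/N34/ModelDefs9` (citation:
`ES/P36/ModelQAt4.nodalNumData_four_at` + `frobInvAt_of_normal`), with algebraically closed residue
fields of the two components (`hac1`, `hac2`) and thick nodes of thickness `e(L / p)`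
(`hthW` / `hthT`).  For a `p`-torsion, Galois-stable group `V` of `L`-rational classes satisfying
(T4) and, in the wild case, the toric-lead hypothesis `htor`:

  every `τ` in the inertia group of `A` with `τ ζ = ζ ^ c` on `μ_p` acts on `V` by the scalar `c`.

Assembly of `Car/ContractNum15` (helper15; `Car/ContractInst43`) with the `σ`-side `Tri/GalData43`
and the arithmetic of `PeuRamData` (`Ram/TameEps20`, `Mod/BaseFacts73`).
-/
import Mathlib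
import Fermat.Agent.M1.Car.ContractNum15
import Fermat.Agent.M1.Tri.GalData43
import Fermat.Agent.M1.Mod.BaseFacts73
import Fermat.Agent.M1.Car.RatClass25

set_option autoImplicit false
set_option linter.unusedSectionVars false
set_option synthInstance.maxHeartbeats 400000

noncomputable section

open HahnSeries AlgebraicCurve ModularCurve

namespace Fermat.Agent.M1.Tri.OverL43

open Fermat.Agent.RED.Interface4 Fermat.Agent.RED.PUR.GaussGen8 Fermat.Agent.RED.BASE.EtaQuot12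
  Fermat.Agent.ES.N34.GalBase21 Fermat.Agent.ES.N34.NodalCore13 Fermat.Agent.ES.N34.NumData13
  Fermat.Agent.ES.N34
  Fermat.Agent.M1.Car.Defs43 Fermat.Agent.M1.Car.ContractInst43 Fermat.Agent.M1.Car.ContractNum15
  Fermat.Agent.M1.Car.TorsInst15 Fermat.Agent.M1.Car.TorsClass43 Fermat.Agent.M1.Car.NodeFrame58
  Fermat.Agent.M1.Pic2.Defs60 Fermat.Agent.M1.Fib.Constants98
  Fermat.Agent.M1.Mod.GalDepth13 Fermat.Agent.M1.Ram.PeuRamDef20 Fermat.Agent.M1.Ram.TameEps20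
  Fermat.Agent.M1.Tri.GalData43

/-- the scalar tower `A ∩ L → L → F_L` (typeclass search is too slow to find it). -/
local instance (priority := high) instTowerOE43 {Kt : Type*} [Field Kt] (O : ValuationSubring Kt)
    (E : IntermediateField Kt (LaurentSeries Kt)) : IsScalarTower ↥O Kt ↥E :=
  IsScalarTower.of_algebraMap_eq fun _ => rfl

variable {A : ValuationSubring Qbar} {L : IntermediateField ℚ Qbar} [Normal ℚ L]
  [FiniteDimensional ℚ L]

/-- **TRI over `L` for the model of record.** -/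
theorem inertia_smul_eq_over_L {p : ℕ} (hp : p.Prime) (hp2 : p ≠ 2) (hA : A.LiesOverPrime p)
    {ϖ : ↥(AK A L)} (hd : PeuRamData p A L ϖ)
    (M' q : ℕ) [NeZero M'] [NeZero q] {n₀ e₀ : ℕ} [NeZero n₀]
    (hπ : IsUnif (AK A L) ϖ) (hE : FK (M' * q) L ≤ fracField (AK A L))
    (ht : tq (↥L) n₀ e₀ ∈ FK M' L)
    (N : NodalNumData ↥(AK A L) ↥L ↥(FK (M' * q) L) ϖ (ModelDefs9.tN q ht)
      (ModelDefs9.B0 A q ht) (ModelDefs9.B1 A q ht) (ModelDefs9.O1 M' q hπ hE)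
      (ModelDefs9.O2 M' q hπ hE))
    (hac1 : ResidueAlgClosed ϖ (ModelDefs9.O1 M' q hπ hE))
    (hac2 : ResidueAlgClosed ϖ (ModelDefs9.O2 M' q hπ hE))
    (hthW : Associated (ϖ ^ (p * (p - 1))) ((p : ℕ) : AK A L) →
      ThickNodes ϖ (ModelDefs9.B0 A q ht) (ModelDefs9.B1 A q ht) (ModelDefs9.O1 M' q hπ hE)
        (ModelDefs9.O2 M' q hπ hE) (p * (p - 1)))
    (hthT : Associated (ϖ ^ (p - 1)) ((p : ℕ) : AK A L) →
      ThickNodes ϖ (ModelDefs9.B0 A q ht) (ModelDefs9.B1 A q ht) (ModelDefs9.O1 M' q hπ hE)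
        (ModelDefs9.O2 M' q hπ hE) (p - 1))
    {hπ1 : algebraMap ↥(AK A L) ↥(FK (M' * q) L) ϖ ∈ ModelDefs9.O1 M' q hπ hE}
    {hπ2 : algebraMap ↥(AK A L) ↥(FK (M' * q) L) ϖ ∈ ModelDefs9.O2 M' q hπ hE}
    (V : AddSubgroup (Pic0 ↥L ↥(FK (M' * q) L))) (tors : ∀ v ∈ V, p • v = 0)
    (stable : ∀ σ : Qbar ≃ₐ[ℚ] Qbar, ∀ v ∈ V, galK L (M' * q) σ • v ∈ V)
    (T4 : ∀ v ∈ V,
      v ∈ Cart ϖ (ModelDefs9.B0 A q ht) (ModelDefs9.B1 A q ht) (ModelDefs9.O1 M' q hπ hE)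
        (ModelDefs9.O2 M' q hπ hE) hπ1 hπ2 0 →
      v ∈ Cart ϖ (ModelDefs9.B0 A q ht) (ModelDefs9.B1 A q ht) (ModelDefs9.O1 M' q hπ hE)
        (ModelDefs9.O2 M' q hπ hE) hπ1 hπ2 1)
    (htor : Associated (ϖ ^ (p * (p - 1))) ((p : ℕ) : AK A L) →
      ∀ n : ℕ, 1 ≤ n → n < p → ∀ v ∈ V,
      v ∈ Cart ϖ (ModelDefs9.B0 A q ht) (ModelDefs9.B1 A q ht) (ModelDefs9.O1 M' q hπ hE)
        (ModelDefs9.O2 M' q hπ hE) hπ1 hπ2 n →
      ∃ D : Divisor.degZero (K := ↥L) (F := ↥(FK (M' * q) L)), Pic0.mk D = v ∧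
        HasLevel ϖ (ModelDefs9.B0 A q ht) (ModelDefs9.B1 A q ht) (ModelDefs9.O1 M' q hπ hE)
          (ModelDefs9.O2 M' q hπ hE) n (D : Divisor ↥L ↥(FK (M' * q) L)) ∧
        ∃ c, HasLead (algebraMap ↥(AK A L) ↥(FK (M' * q) L) ϖ) n
          ((torsFrame_of_numData N hac1 hac2
            (Fermat.Agent.M1.Fib.NodeExists61.hasNode_of_numData N)).pair
              (D : Divisor ↥L ↥(FK (M' * q) L))) c ∧
          Pic2.ToricPic15.IsToric ϖ (ModelDefs9.B0 A q ht) (ModelDefs9.B1 A q ht)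
            (ModelDefs9.O1 M' q hπ hE) (ModelDefs9.O2 M' q hπ hE) c) :
    ∀ τ ∈ A.inertiaSubgroupIn ℚ, ∀ c : ℕ, (∀ ζ : Qbar, ζ ^ p = 1 → τ ζ = ζ ^ c) →
      ∀ v ∈ V, galK L (M' * q) τ • v = c • v := by
  intro τ hτ c hc
  have hCyc := cycAt_of_cyclo M' q hd hp hτ hc hπ hE ht N.model
  have hchar : ∀ n : ℤ, ϖ ∣ ((n : ℤ) : ↥(AK A L)) → (p : ℤ) ∣ n :=
    fun n h => dvd_of_unif_dvd_intCast hd hp h
  have hperf : ∀ r : ↥(AK A L), ∃ ρ : ↥(AK A L), ϖ ∣ ρ ^ p - r :=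
    Fermat.Agent.M1.Mod.BaseFacts73.hperf_AK hd.unif hp hA
  rcases hd.ram with hram | hram
  · -- the wild case `e = p (p - 1)`
    obtain ⟨u, hu⟩ := hram
    obtain ⟨g₀, hg₀I, hg₀μ, hg₀ne, hg₀p⟩ := exists_wild_element hd hp hA ⟨u, hu⟩
    obtain ⟨θ₀, hθ₀, hθ⟩ := wild_theta hd hg₀I hg₀μ hg₀ne (M' * q)
    have hg₀ := inertiaAut_of_ramDepth M' q hg₀I hπ (ramDepth_two hd hg₀I hg₀μ) hE ht N.model
    have hone : galK L (M' * q) g₀ ^ p = 1 := by
      unfold galK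
      rw [← map_pow, hg₀p, map_one]
    have horder : ∀ v ∈ V, galK L (M' * q) g₀ ^ p • v = v := by
      intro v _
      rw [hone, one_smul]
    exact inertia_smul_eq_of_wild_numData N hac1 hac2 (hthW ⟨u, hu⟩) (hπ1 := hπ1) (hπ2 := hπ2)
      hp hp2 rfl u hu.symm hchar hperf V tors (stable g₀) horder hg₀ hθ hθ₀ T4 (htor ⟨u, hu⟩)
      (galK L (M' * q) τ) c (hCyc.1 ⟨u, hu⟩)
  · -- the tame case `e = p - 1`
    obtain ⟨u, hu⟩ := hram
    exact inertia_smul_eq_of_tame_numData N hac1 hac2 (hthT ⟨u, hu⟩) (hπ1 := hπ1) (hπ2 := hπ2)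
      hp rfl u hu.symm V tors T4 (galK L (M' * q) τ) c (hCyc.2 ⟨u, hu⟩)

end Fermat.Agent.M1.Tri.OverL43
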