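/-
M1 (row 38, S44), chapter TRI — helper43.

**THE M1 MAIN THEOREM FROM THE LOCAL PACKAGE.**

`LocalPkg p A L M'' n₀ e₀ ϖ V` collects what the local chapters (MOD, NODE, CAR, OLD, LINK, NRM)
deliver over ONE finite normal field `L` with `PeuRamData p A L ϖ`, for the model of record of
`X₀(M'' p)` over `A ∩ L` (names of `ES/N34/ModelDefs9`, Hauptmodul `(n₀, e₀)`) and a group `V` of
`L`-rational classes: the nodal numerical data `N`, algebraically closed residue fields of the two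
components, thick nodes of thickness `e(L / p)`, (T4) and the toric-lead hypothesis `htor`.

`hcore_of_localPkg` : if `Y ⊆ J₀(M'' p)(ℚ̄)` is a `p`-torsion, `G_ℚ`-stable subgroup and every peu
ramifié `L₀ ⊇ K₀` can be enlarged to a peu ramifié `L` carrying the local package for
`V_L = Transport53.VL (M'' p) L Y`, then every `τ` of the inertia group at `A` with `τ ζ = ζ ^ c`
on `μ_p` acts by the scalar `c` on the `H`-invariants of `Y`, for every normal `H` with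
`PeuRam p A H`.  (= `Tri/Descent43.hcore_of_fields` ∘ `Tri/OverL43.inertia_smul_eq_over_L`.)
-/
import Mathlib
import Fermat.Agent.M1.Tri.OverL43
import Fermat.Agent.M1.Tri.Descent43
import Fermat.Agent.M1.Tri.Transport53

set_option autoImplicit false
set_option linter.unusedSectionVars false
set_option synthInstance.maxHeartbeats 400000

noncomputable section

open HahnSeries AlgebraicCurve ModularCurve

namespace Fermat.Agent.M1.Tri.MainAbs43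

open Fermat.Agent.RED.Interface4 Fermat.Agent.RED.PUR.GaussGen8 Fermat.Agent.RED.BASE.EtaQuot12
  Fermat.Agent.ES.N34.GalBase21 Fermat.Agent.ES.N34.NodalCore13 Fermat.Agent.ES.N34.NumData13
  Fermat.Agent.ES.N34
  Fermat.Agent.M1.Car.Defs43 Fermat.Agent.M1.Car.ContractInst43 Fermat.Agent.M1.Car.ContractNum15
  Fermat.Agent.M1.Car.TorsInst15 Fermat.Agent.M1.Car.TorsClass43 Fermat.Agent.M1.Car.NodeFrame58
  Fermat.Agent.M1.Pic2.Defs60 Fermat.Agent.M1.Fib.Constants98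
  Fermat.Agent.M1.Mod.GalDepth13 Fermat.Agent.M1.Ram.PeuRamDef20
  Fermat.Agent.M1.Car.RatClass25 Fermat.Agent.M1.Tri.Transport53

local notation "GQ" => (Qbar ≃ₐ[ℚ] Qbar)

/-- **The local package over one field `L`** (everything is a proposition). -/
def LocalPkg (p : ℕ) (A : ValuationSubring Qbar) (L : IntermediateField ℚ Qbar)
    [FiniteDimensional ℚ L] (M'' : ℕ) [NeZero M''] [NeZero p] (n₀ e₀ : ℕ) [NeZero n₀] (ϖ : ↥(AK A L))
    (V : AddSubgroup (Pic0 ↥L ↥(FK (M'' * p) L))) : Prop :=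
  ∃ (hπ : IsUnif (AK A L) ϖ) (hE : FK (M'' * p) L ≤ fracField (AK A L))
    (ht : tq (↥L) n₀ e₀ ∈ FK M'' L)
    (N : NodalNumData ↥(AK A L) ↥L ↥(FK (M'' * p) L) ϖ (ModelDefs9.tN p ht)
      (ModelDefs9.B0 A p ht) (ModelDefs9.B1 A p ht) (ModelDefs9.O1 M'' p hπ hE)
      (ModelDefs9.O2 M'' p hπ hE))
    (hac1 : ResidueAlgClosed ϖ (ModelDefs9.O1 M'' p hπ hE))
    (hac2 : ResidueAlgClosed ϖ (ModelDefs9.O2 M'' p hπ hE))
    (hπ1 : algebraMap ↥(AK A L) ↥(FK (M'' * p) L) ϖ ∈ ModelDefs9.O1 M'' p hπ hE)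
    (hπ2 : algebraMap ↥(AK A L) ↥(FK (M'' * p) L) ϖ ∈ ModelDefs9.O2 M'' p hπ hE),
    -- thick nodes, wild case
    (Associated (ϖ ^ (p * (p - 1))) ((p : ℕ) : AK A L) →
      ThickNodes ϖ (ModelDefs9.B0 A p ht) (ModelDefs9.B1 A p ht) (ModelDefs9.O1 M'' p hπ hE)
        (ModelDefs9.O2 M'' p hπ hE) (p * (p - 1))) ∧
    -- thick nodes, tame case
    (Associated (ϖ ^ (p - 1)) ((p : ℕ) : AK A L) →
      ThickNodes ϖ (ModelDefs9.B0 A p ht) (ModelDefs9.B1 A p ht) (ModelDefs9.O1 M'' p hπ hE)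
        (ModelDefs9.O2 M'' p hπ hE) (p - 1)) ∧
    -- (T4)
    (∀ v ∈ V,
      v ∈ Cart ϖ (ModelDefs9.B0 A p ht) (ModelDefs9.B1 A p ht) (ModelDefs9.O1 M'' p hπ hE)
        (ModelDefs9.O2 M'' p hπ hE) hπ1 hπ2 0 →
      v ∈ Cart ϖ (ModelDefs9.B0 A p ht) (ModelDefs9.B1 A p ht) (ModelDefs9.O1 M'' p hπ hE)
        (ModelDefs9.O2 M'' p hπ hE) hπ1 hπ2 1) ∧
    -- `htor` (wild case only)
    (Associated (ϖ ^ (p * (p - 1))) ((p : ℕ) : AK A L) →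
      ∀ n : ℕ, 1 ≤ n → n < p → ∀ v ∈ V,
      v ∈ Cart ϖ (ModelDefs9.B0 A p ht) (ModelDefs9.B1 A p ht) (ModelDefs9.O1 M'' p hπ hE)
        (ModelDefs9.O2 M'' p hπ hE) hπ1 hπ2 n →
      ∃ D : Divisor.degZero (K := ↥L) (F := ↥(FK (M'' * p) L)), Pic0.mk D = v ∧
        HasLevel ϖ (ModelDefs9.B0 A p ht) (ModelDefs9.B1 A p ht) (ModelDefs9.O1 M'' p hπ hE)
          (ModelDefs9.O2 M'' p hπ hE) n (D : Divisor ↥L ↥(FK (M'' * p) L)) ∧
        ∃ c, HasLead (algebraMap ↥(AK A L) ↥(FK (M'' * p) L) ϖ) n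
          ((torsFrame_of_numData N hac1 hac2
            (Fermat.Agent.M1.Fib.NodeExists61.hasNode_of_numData N)).pair
              (D : Divisor ↥L ↥(FK (M'' * p) L))) c ∧
          Pic2.ToricPic15.IsToric ϖ (ModelDefs9.B0 A p ht) (ModelDefs9.B1 A p ht)
            (ModelDefs9.O1 M'' p hπ hE) (ModelDefs9.O2 M'' p hπ hE) c)

/-- **TRI over one field from the local package.** -/
theorem tri_of_localPkg {p : ℕ} (hp : p.Prime) (hp2 : p ≠ 2) {A : ValuationSubring Qbar}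
    (hA : A.LiesOverPrime p) {L : IntermediateField ℚ Qbar} [Normal ℚ L] [FiniteDimensional ℚ L]
    (M'' : ℕ) [NeZero M''] [NeZero p] (n₀ e₀ : ℕ) [NeZero n₀] {ϖ : ↥(AK A L)}
    (hd : PeuRamData p A L ϖ)
    (V : AddSubgroup (Pic0 ↥L ↥(FK (M'' * p) L))) (tors : ∀ v ∈ V, p • v = 0)
    (stable : ∀ σ : GQ, ∀ v ∈ V, galK L (M'' * p) σ • v ∈ V)
    (hpkg : LocalPkg p A L M'' n₀ e₀ ϖ V) :
    ∀ τ ∈ A.inertiaSubgroupIn ℚ, ∀ c : ℕ, (∀ ζ : Qbar, ζ ^ p = 1 → τ ζ = ζ ^ c) →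
      ∀ v ∈ V, galK L (M'' * p) τ • v = c • v := by
  obtain ⟨hπ, hE, ht, N, hac1, hac2, hπ1, hπ2, hthW, hthT, T4, htor⟩ := hpkg
  exact Fermat.Agent.M1.Tri.OverL43.inertia_smul_eq_over_L hp hp2 hA hd M'' p hπ hE ht N hac1 hac2
    hthW hthT (hπ1 := hπ1) (hπ2 := hπ2) V tors stable T4 htor

/-- **The M1 main theorem from the local package.** -/
theorem hcore_of_localPkg {p : ℕ} (hp : p.Prime) (hp2 : p ≠ 2) {A : ValuationSubring Qbar}
    (hA : A.LiesOverPrime p) (M'' : ℕ) [NeZero M''] [NeZero p] (n₀ e₀ : ℕ) [NeZero n₀]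
    (Y : AddSubgroup (JZero (M'' * p))) (tors : ∀ y ∈ Y, p • y = 0)
    (stable : ∀ σ : GQ, ∀ y ∈ Y, σ • y ∈ Y)
    (K₀ : IntermediateField ℚ Qbar) [Normal ℚ K₀] [FiniteDimensional ℚ K₀]
    (hK₀ : ∀ τ ∈ A.inertiaSubgroupIn ℚ, ∀ x ∈ K₀, τ x = x)
    (hpkg : ∀ (L₀ : IntermediateField ℚ Qbar) [Normal ℚ L₀] (ϖ₀ : AK A L₀),
      PeuRamData p A L₀ ϖ₀ → K₀ ≤ L₀ →
      ∃ (L : IntermediateField ℚ Qbar) (_ : Normal ℚ L) (_ : FiniteDimensional ℚ L), L₀ ≤ L ∧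
        ∃ ϖ : ↥(AK A L), PeuRamData p A L ϖ ∧
          LocalPkg p A L M'' n₀ e₀ ϖ (VL (M'' * p) L Y)) :
    ∀ H : Subgroup GQ, H.Normal → PeuRam p A H →
      ∀ τ ∈ A.inertiaSubgroupIn ℚ, ∀ c : ℕ, (∀ ζ : Qbar, ζ ^ p = 1 → τ ζ = ζ ^ c) →
        ∀ y ∈ Y, (∀ h ∈ H, h • y = y) → τ • y = c • y := by
  refine Fermat.Agent.M1.Tri.Descent43.hcore_of_fields hp hA (M'' * p) Y K₀ hK₀ ?_
  intro L₀ _ ϖ₀ hd₀ hK
  obtain ⟨L, hLn, hLf, hle, ϖ, hd, hP⟩ := hpkg L₀ ϖ₀ hd₀ hK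
  refine ⟨L, hLn, hLf, hle, ?_⟩
  intro τ hτ c hc v hv
  exact tri_of_localPkg hp hp2 hA M'' n₀ e₀ hd (VL (M'' * p) L Y) (tors_VL tors)
    (fun σ => stable_VL stable σ) hP τ hτ c hc v hv

end Fermat.Agent.M1.Tri.MainAbs43
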