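/-
Program M1 (S44), chapter TRI (helper13), for helper43's `Tri/Main43`: **the MODEL BLOCK over one
field `L` carrying `PeuRamData`** — pure citations.

For `p` odd, `4 ∣ M''`, `p ∤ M''`, `A` over `p`, `L / ℚ` finite normal with `ζ_{M''} ∈ L` and
`hd : PeuRamData p A L ϖ`, with the uniformiser hypothesis of the model of record instantiated at
`hπ := GalData43.isUnif_of_peuRamData hd hp hA`:

* `NodalNumData (A ∩ L) L (L·F_{M''p}) ϖ (tN p ht) (B0 A p ht) (B1 A p ht) (O1 M'' p hπ hE)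
  (O2 M'' p hπ hE)`  (`ES/P36/ModelQAt4.nodalNumData_four_at` + `frobInvAt_of_normal`: the model of
  record exists over every finite normal field, ramified or not);
* `ResidueAlgClosed ϖ O1`, `ResidueAlgClosed ϖ O2` (`Mod/ACModel98`).

These are the binders `N`, `hac1`, `hac2` of `Tri/OverL43.inertia_smul_eq_over_L` /
`Tri/CoreL13.tri_wild`.
-/
import Mathlib
import Fermat.Agent.ES.P36.ModelQAt4
import Fermat.Agent.M1.Mod.ACModel98
import Fermat.Agent.M1.Tri.GalData43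

set_option autoImplicit false
set_option synthInstance.maxHeartbeats 400000
set_option linter.unusedSectionVars false

noncomputable section

open HahnSeries ModularCurve IntermediateField

namespace Fermat.Agent.M1.Tri.ModelBlock13

open Fermat.Agent.RED.Interface4 Fermat.Agent.RED.PUR.GaussGen8 Fermat.Agent.RED.BASE.EtaQuot12
  Fermat.Agent.X0 Fermat.Agent.ES.N34.ModelDefs9 Fermat.Agent.ES.N34.NumData13
  Fermat.Agent.ES.P36.ModelQAt4 Fermat.Agent.M1.Fib.Constants98 Fermat.Agent.M1.Mod.ACModel98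
  Fermat.Agent.M1.Ram.PeuRamDef20 Fermat.Agent.M1.Tri.GalData43

variable {A : ValuationSubring Qbar} {L : IntermediateField ℚ Qbar} [Normal ℚ L]
  [FiniteDimensional ℚ L] {p : ℕ} [NeZero p] {M'' : ℕ} [NeZero M''] {ϖ : ↥(AK A L)}

/-- **The model block over `L`** (`p` odd, `4 ∣ M''`): the model of record over `L` with uniformiser
`ϖ` of `PeuRamData`, and `(AC)` for its two Gauss valuation rings. -/
theorem exists_model_four (hp : p.Prime) (hp2 : p ≠ 2) (hpM : ¬ p ∣ M'') (hM : 4 ∣ M'')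
    (hA : A.LiesOverPrime p) (hζ : zetaK M'' ∈ L) (hd : PeuRamData p A L ϖ) :
    ∃ (ht : tq (↥L) 4 8 ∈ FK M'' L) (hE : FK (M'' * p) L ≤ fracField (AK A L)),
      NodalNumData ↥(AK A L) ↥L ↥(FK (M'' * p) L) ϖ (tN p ht) (B0 A p ht) (B1 A p ht)
          (O1 M'' p (isUnif_of_peuRamData hd hp hA) hE)
          (O2 M'' p (isUnif_of_peuRamData hd hp hA) hE) ∧
        ResidueAlgClosed ϖ (O1 M'' p (isUnif_of_peuRamData hd hp hA) hE) ∧
        ResidueAlgClosed ϖ (O2 M'' p (isUnif_of_peuRamData hd hp hA) hE) := by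
  obtain ⟨ht, hE, h⟩ := nodalNumData_four_at hp hp2 hpM hM hA hζ (frobInvAt_of_normal hp hA)
  exact ⟨ht, hE, h ϖ (isUnif_of_peuRamData hd hp hA),
    residueAlgClosed_O1 M'' p (isUnif_of_peuRamData hd hp hA) hE,
    residueAlgClosed_O2 M'' p (isUnif_of_peuRamData hd hp hA) hE⟩

/-- The same for an arbitrary uniformiser hypothesis `hπ` (proof irrelevant). -/
theorem exists_model_four' (hp : p.Prime) (hp2 : p ≠ 2) (hpM : ¬ p ∣ M'') (hM : 4 ∣ M'')
    (hA : A.LiesOverPrime p) (hζ : zetaK M'' ∈ L) (hπ : IsUnif (AK A L) ϖ) :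
    ∃ (ht : tq (↥L) 4 8 ∈ FK M'' L) (hE : FK (M'' * p) L ≤ fracField (AK A L)),
      NodalNumData ↥(AK A L) ↥L ↥(FK (M'' * p) L) ϖ (tN p ht) (B0 A p ht) (B1 A p ht)
          (O1 M'' p hπ hE) (O2 M'' p hπ hE) ∧
        ResidueAlgClosed ϖ (O1 M'' p hπ hE) ∧ ResidueAlgClosed ϖ (O2 M'' p hπ hE) := by
  obtain ⟨ht, hE, h⟩ := nodalNumData_four_at hp hp2 hpM hM hA hζ (frobInvAt_of_normal hp hA)
  exact ⟨ht, hE, h ϖ hπ, residueAlgClosed_O1 M'' p hπ hE, residueAlgClosed_O2 M'' p hπ hE⟩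

end Fermat.Agent.M1.Tri.ModelBlock13
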