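/-
M1 (row 38, S44), chapter TRI — helper43.

**THE M1 MAIN THEOREM FROM THE THREE SEAMS** (`THICK`, `T4`, `htor`), for an arbitrary `p`-torsion
Galois-stable subgroup `Y ⊆ J₀(M'' p)(ℚ̄)`, `4 ∣ M''`, `p ∤ M''`, `p` odd.

Discharged here, over every field `L = L₀ ⊔ ℚ(ζ_m)` (`L₀ ⊇ K₀ = ℚ(ζ_{M''})` peu ramifié, `p ∤ m` the
RAT-NODES enlargement):
* `K₀` finite, normal, fixed by the inertia group at `A` (`ES/P36/ZetaUnr26`);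
* `PeuRamData p A L ϖ` (`Ram/EnlargeCyclo73`);
* the model block `N`, `hac1`, `hac2` (`Tri/ModelBlock13`);
* the matching of the thickness `e` of the nodes with the ramification alternative of `PeuRamData`
  (`Mod/ResidueRoots34.eis_exponent_unique`);
* the assembly `Tri/MainAbs43.hcore_of_localPkg`.
-/
import Mathlib
import Fermat.Agent.M1.Tri.MainAbs43
import Fermat.Agent.M1.Tri.ModelBlock13
import Fermat.Agent.M1.Ram.EnlargeCyclo73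
import Fermat.Agent.M1.Mod.ResidueRoots34

set_option autoImplicit false
set_option linter.unusedSectionVars false
set_option synthInstance.maxHeartbeats 400000

noncomputable section

open HahnSeries AlgebraicCurve ModularCurve IntermediateField

namespace Fermat.Agent.M1.Tri.MainMid43

open Fermat.Agent.RED.Interface4 Fermat.Agent.RED.PUR.GaussGen8 Fermat.Agent.RED.BASE.EtaQuot12
  Fermat.Agent.ES.N34.GalBase21 Fermat.Agent.ES.N34.NodalCore13 Fermat.Agent.ES.N34.NumData13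
  Fermat.Agent.ES.N34 Fermat.Agent.X0
  Fermat.Agent.M1.Car.Defs43 Fermat.Agent.M1.Car.ContractInst43 Fermat.Agent.M1.Car.ContractNum15
  Fermat.Agent.M1.Car.TorsInst15 Fermat.Agent.M1.Car.TorsClass43 Fermat.Agent.M1.Car.NodeFrame58
  Fermat.Agent.M1.Pic2.Defs60 Fermat.Agent.M1.Fib.Constants98
  Fermat.Agent.M1.Mod.GalDepth13 Fermat.Agent.M1.Ram.PeuRamDef20
  Fermat.Agent.M1.Car.RatClass25 Fermat.Agent.M1.Tri.Transport53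
  Fermat.Agent.M1.Tri.MainAbs43 Fermat.Agent.M1.Tri.GalData43

local notation "GQ" => (Qbar ≃ₐ[ℚ] Qbar)

/-- **matching the thickness with the ramification exponent.** -/
theorem thick_of_exists {R F : Type*} [CommRing R] [IsDomain R] [Field F] [Algebra R F]
    {ϖ x : R} (h0 : ϖ ≠ 0) (hu : ¬ IsUnit ϖ) {B0 B1 : Subalgebra R F}
    {O1 O2 : ValuationSubring F} (e' : ℕ)
    (h : ∃ e : ℕ, 0 < e ∧ (∃ v : Rˣ, x = v * ϖ ^ e) ∧ ThickNodes ϖ B0 B1 O1 O2 e)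
    (hass : Associated (ϖ ^ e') x) : ThickNodes ϖ B0 B1 O1 O2 e' := by
  obtain ⟨e, -, ⟨v, hv⟩, hT⟩ := h
  have he : e = e' := Fermat.Agent.M1.Mod.ResidueRoots34.eis_exponent_unique h0 hu hv hass
  rw [← he]
  exact hT

/-- a uniformiser is not a unit. -/
theorem not_isUnit_of_isUnif {K : Type*} [Field K] {O : ValuationSubring K} {π : ↥O}
    (hπ : IsUnif O π) : ¬ IsUnit π := by
  have h1 : π ∈ IsLocalRing.maximalIdeal ↥O := by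
    rw [hπ.max_eq]
    exact Ideal.mem_span_singleton_self π
  exact (IsLocalRing.mem_maximalIdeal π).mp h1

variable {p : ℕ} {A : ValuationSubring Qbar}

/-- **The M1 main theorem from the three seams.** -/
theorem hcore_of_seams (hp : p.Prime) (hp2 : p ≠ 2) (hA : A.LiesOverPrime p)
    (M'' : ℕ) [NeZero M''] [NeZero p] (hpM : ¬ p ∣ M'') (hM : 4 ∣ M'')
    (Y : AddSubgroup (JZero (M'' * p))) (tors : ∀ y ∈ Y, p • y = 0)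
    (stable : ∀ σ : GQ, ∀ y ∈ Y, σ • y ∈ Y)
    -- the THICK seam (`ThickAll97.thickNodes_four` ∘ `ThickEnlarge56` ∘ RAT-NODES)
    (hThick : ∀ (L₀ : IntermediateField ℚ Qbar) [Normal ℚ L₀] [FiniteDimensional ℚ L₀],
      zetaK M'' ∈ L₀ → ∃ m : ℕ, 0 < m ∧ ¬ p ∣ m ∧ ∀ z : Qbar, IsPrimitiveRoot z m →
        ∀ [Normal ℚ ↥(L₀ ⊔ ℚ⟮z⟯)] [FiniteDimensional ℚ ↥(L₀ ⊔ ℚ⟮z⟯)]
          (ht : tq (↥(L₀ ⊔ ℚ⟮z⟯)) 4 8 ∈ FK M'' (L₀ ⊔ ℚ⟮z⟯))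
          (hE : FK (M'' * p) (L₀ ⊔ ℚ⟮z⟯) ≤ fracField (AK A (L₀ ⊔ ℚ⟮z⟯)))
          (ϖ : ↥(AK A (L₀ ⊔ ℚ⟮z⟯))) (hπ : IsUnif (AK A (L₀ ⊔ ℚ⟮z⟯)) ϖ),
          ∃ e : ℕ, 0 < e ∧
            (∃ v : (↥(AK A (L₀ ⊔ ℚ⟮z⟯)))ˣ, ((p : ℕ) : ↥(AK A (L₀ ⊔ ℚ⟮z⟯))) = v * ϖ ^ e) ∧
            ThickNodes ϖ (ModelDefs9.B0 A p ht) (ModelDefs9.B1 A p ht)
              (ModelDefs9.O1 M'' p hπ hE) (ModelDefs9.O2 M'' p hπ hE) e)
    -- the T4 seam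
    (hT4 : ∀ (L : IntermediateField ℚ Qbar) [Normal ℚ L] [FiniteDimensional ℚ L],
      zetaK M'' ∈ L → ∀ (ϖ : ↥(AK A L)), PeuRamData p A L ϖ →
      ∀ (hπ : IsUnif (AK A L) ϖ) (hE : FK (M'' * p) L ≤ fracField (AK A L))
        (ht : tq (↥L) 4 8 ∈ FK M'' L)
        (_N : NodalNumData ↥(AK A L) ↥L ↥(FK (M'' * p) L) ϖ (ModelDefs9.tN p ht)
          (ModelDefs9.B0 A p ht) (ModelDefs9.B1 A p ht) (ModelDefs9.O1 M'' p hπ hE)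
          (ModelDefs9.O2 M'' p hπ hE))
        (_hac1 : ResidueAlgClosed ϖ (ModelDefs9.O1 M'' p hπ hE))
        (_hac2 : ResidueAlgClosed ϖ (ModelDefs9.O2 M'' p hπ hE))
        (e : ℕ) (_he : ∃ v : (↥(AK A L))ˣ, ((p : ℕ) : ↥(AK A L)) = v * ϖ ^ e)
        (_hth : ThickNodes ϖ (ModelDefs9.B0 A p ht) (ModelDefs9.B1 A p ht)
          (ModelDefs9.O1 M'' p hπ hE) (ModelDefs9.O2 M'' p hπ hE) e)
        (hπ1 : algebraMap ↥(AK A L) ↥(FK (M'' * p) L) ϖ ∈ ModelDefs9.O1 M'' p hπ hE)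
        (hπ2 : algebraMap ↥(AK A L) ↥(FK (M'' * p) L) ϖ ∈ ModelDefs9.O2 M'' p hπ hE),
        ∀ v ∈ VL (M'' * p) L Y,
          v ∈ Cart ϖ (ModelDefs9.B0 A p ht) (ModelDefs9.B1 A p ht) (ModelDefs9.O1 M'' p hπ hE)
            (ModelDefs9.O2 M'' p hπ hE) hπ1 hπ2 0 →
          v ∈ Cart ϖ (ModelDefs9.B0 A p ht) (ModelDefs9.B1 A p ht) (ModelDefs9.O1 M'' p hπ hE)
            (ModelDefs9.O2 M'' p hπ hE) hπ1 hπ2 1)
    -- the `htor` seam (wild case only)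
    (hTor : ∀ (L : IntermediateField ℚ Qbar) [Normal ℚ L] [FiniteDimensional ℚ L],
      zetaK M'' ∈ L → ∀ (ϖ : ↥(AK A L)), PeuRamData p A L ϖ →
      ∀ (hπ : IsUnif (AK A L) ϖ) (hE : FK (M'' * p) L ≤ fracField (AK A L))
        (ht : tq (↥L) 4 8 ∈ FK M'' L)
        (N : NodalNumData ↥(AK A L) ↥L ↥(FK (M'' * p) L) ϖ (ModelDefs9.tN p ht)
          (ModelDefs9.B0 A p ht) (ModelDefs9.B1 A p ht) (ModelDefs9.O1 M'' p hπ hE)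
          (ModelDefs9.O2 M'' p hπ hE))
        (hac1 : ResidueAlgClosed ϖ (ModelDefs9.O1 M'' p hπ hE))
        (hac2 : ResidueAlgClosed ϖ (ModelDefs9.O2 M'' p hπ hE))
        (_hth : ThickNodes ϖ (ModelDefs9.B0 A p ht) (ModelDefs9.B1 A p ht)
          (ModelDefs9.O1 M'' p hπ hE) (ModelDefs9.O2 M'' p hπ hE) (p * (p - 1)))
        (hπ1 : algebraMap ↥(AK A L) ↥(FK (M'' * p) L) ϖ ∈ ModelDefs9.O1 M'' p hπ hE)
        (hπ2 : algebraMap ↥(AK A L) ↥(FK (M'' * p) L) ϖ ∈ ModelDefs9.O2 M'' p hπ hE),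
        Associated (ϖ ^ (p * (p - 1))) ((p : ℕ) : AK A L) →
        ∀ n : ℕ, 1 ≤ n → n < p → ∀ v ∈ VL (M'' * p) L Y,
        v ∈ Cart ϖ (ModelDefs9.B0 A p ht) (ModelDefs9.B1 A p ht) (ModelDefs9.O1 M'' p hπ hE)
          (ModelDefs9.O2 M'' p hπ hE) hπ1 hπ2 n →
        ∃ D : Divisor.degZero (K := ↥L) (F := ↥(FK (M'' * p) L)), Pic0.mk D = v ∧
          HasLevel ϖ (ModelDefs9.B0 A p ht) (ModelDefs9.B1 A p ht) (ModelDefs9.O1 M'' p hπ hE)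
            (ModelDefs9.O2 M'' p hπ hE) n (D : Divisor ↥L ↥(FK (M'' * p) L)) ∧
          ∃ c, HasLead (algebraMap ↥(AK A L) ↥(FK (M'' * p) L) ϖ) n
            ((torsFrame_of_numData N hac1 hac2
              (Fermat.Agent.M1.Fib.NodeExists61.hasNode_of_numData N)).pair
                (D : Divisor ↥L ↥(FK (M'' * p) L))) c ∧
            Pic2.ToricPic15.IsToric ϖ (ModelDefs9.B0 A p ht) (ModelDefs9.B1 A p ht)
              (ModelDefs9.O1 M'' p hπ hE) (ModelDefs9.O2 M'' p hπ hE) c) :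
    ∀ H : Subgroup GQ, H.Normal → PeuRam p A H →
      ∀ τ ∈ A.inertiaSubgroupIn ℚ, ∀ c : ℕ, (∀ ζ : Qbar, ζ ^ p = 1 → τ ζ = ζ ^ c) →
        ∀ y ∈ Y, (∀ h ∈ H, h • y = y) → τ • y = c • y := by
  -- the base field `K₀ = ℚ(ζ_{M''})`
  obtain ⟨K₀, hK₀fin, hζK₀, hK₀fix, hK₀st⟩ :=
    Fermat.Agent.ES.P36.ZetaUnr26.exists_zeta_field_unr hp hA M'' hpM
  haveI := hK₀fin
  haveI hK₀n : Normal ℚ ↥K₀ := by
    have hQ : Normal ℚ Qbar := inferInstance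
    refine (IntermediateField.normal_iff_forall_map_le' (F := ℚ) (K := K₀) (L := Qbar)).mpr ?_
    rintro σ _ ⟨x, hx, rfl⟩
    exact hK₀st σ x hx
  refine hcore_of_localPkg hp hp2 hA M'' 4 8 Y tors stable K₀ hK₀fix ?_
  intro L₀ _ ϖ₀ hd₀ hK
  haveI := hd₀.finite
  have hζL₀ : zetaK M'' ∈ L₀ := hK hζK₀
  obtain ⟨m, hm0, hpm, hTh⟩ := hThick L₀ hζL₀
  haveI : NeZero m := ⟨hm0.ne'⟩
  have hz : IsPrimitiveRoot (zetaK m) m := isPrimitiveRoot_zetaK m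
  obtain ⟨hLn, hLf, ϖ, hle, hd⟩ :=
    Fermat.Agent.M1.Ram.EnlargeCyclo73.exists_peuRamData_sup_rootOfUnity hd₀ hp hA hpm hz
  refine ⟨L₀ ⊔ ℚ⟮zetaK m⟯, hLn, hLf, hle, ϖ, hd, ?_⟩
  have hζL : zetaK M'' ∈ L₀ ⊔ ℚ⟮zetaK m⟯ := hle hζL₀
  have hπ : IsUnif (AK A (L₀ ⊔ ℚ⟮zetaK m⟯)) ϖ := isUnif_of_peuRamData hd hp hA
  obtain ⟨ht, hE, N, hac1, hac2⟩ :=
    Fermat.Agent.M1.Tri.ModelBlock13.exists_model_four' hp hp2 hpM hM hA hζL hπ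
  have hthick := hTh (zetaK m) hz ht hE ϖ hπ
  have h0 : ϖ ≠ 0 := hπ.ne_zero
  have hu : ¬ IsUnit ϖ := not_isUnit_of_isUnif hπ
  have hπ1 := pi_mem_O1 N.model
  have hπ2 := pi_mem_O2 N.model
  have hthW : Associated (ϖ ^ (p * (p - 1))) ((p : ℕ) : AK A (L₀ ⊔ ℚ⟮zetaK m⟯)) →
      ThickNodes ϖ (ModelDefs9.B0 A p ht) (ModelDefs9.B1 A p ht) (ModelDefs9.O1 M'' p hπ hE)
        (ModelDefs9.O2 M'' p hπ hE) (p * (p - 1)) :=
    fun hass => thick_of_exists h0 hu _ hthick hass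
  have hthT : Associated (ϖ ^ (p - 1)) ((p : ℕ) : AK A (L₀ ⊔ ℚ⟮zetaK m⟯)) →
      ThickNodes ϖ (ModelDefs9.B0 A p ht) (ModelDefs9.B1 A p ht) (ModelDefs9.O1 M'' p hπ hE)
        (ModelDefs9.O2 M'' p hπ hE) (p - 1) :=
    fun hass => thick_of_exists h0 hu _ hthick hass
  obtain ⟨e, -, hev, hth⟩ := hthick
  unfold LocalPkg
  refine ⟨hπ, hE, ht, N, hac1, hac2, hπ1, hπ2, hthW, hthT, ?_, ?_⟩
  · exact hT4 (L₀ ⊔ ℚ⟮zetaK m⟯) hζL ϖ hd hπ hE ht N hac1 hac2 e hev hth hπ1 hπ2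
  · intro hass
    exact hTor (L₀ ⊔ ℚ⟮zetaK m⟯) hζL ϖ hd hπ hE ht N hac1 hac2 (hthW hass) hπ1 hπ2 hass

end Fermat.Agent.M1.Tri.MainMid43
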