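/-
M1 (row 38, S44), chapter TRI — helper43.

**`CoreTors` (the M1 main theorem, `Glue/Iface44`) FROM THE THREE SEAMS.**

`ThickSeam`, `T4Seam`, `TorSeam` are the three statements the chapters MOD/NODE (thick nodes after
the RAT-NODES enlargement), OLD/LINK/NRM ((T4)) and NRM/CAR (`htor`) deliver, quantified over the
data of `Iface44.CoreTors`; `coreTors_of_seams` is `Tri/MainMid43.hcore_of_seams` at
`M'' := auxM M' = lcm(M', 4)` and `Y := auxV M' p (eigenTors p (M' p) S a)`.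
-/
import Mathlib
import Fermat.Agent.M1.Glue.Iface44
import Fermat.Agent.M1.Glue.EigenAdapter47
import Fermat.Agent.M1.Tri.MainMid43

set_option autoImplicit false
set_option linter.unusedSectionVars false
set_option linter.style.haveILetI false
set_option synthInstance.maxHeartbeats 400000

noncomputable section

open HahnSeries AlgebraicCurve ModularCurve IntermediateField

namespace Fermat.Agent.M1.Tri.MainSeams43

open Fermat.Agent.RED.Interface4 Fermat.Agent.RED.PUR.GaussGen8 Fermat.Agent.RED.BASE.EtaQuot12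
  Fermat.Agent.ES.N34.GalBase21 Fermat.Agent.ES.N34.NodalCore13 Fermat.Agent.ES.N34.NumData13
  Fermat.Agent.ES.N34 Fermat.Agent.X0
  Fermat.Agent.M1.Car.Defs43 Fermat.Agent.M1.Car.ContractInst43 Fermat.Agent.M1.Car.ContractNum15
  Fermat.Agent.M1.Car.TorsInst15 Fermat.Agent.M1.Car.TorsClass43 Fermat.Agent.M1.Car.NodeFrame58
  Fermat.Agent.M1.Pic2.Defs60 Fermat.Agent.M1.Fib.Constants98
  Fermat.Agent.M1.Mod.GalDepth13 Fermat.Agent.M1.Ram.PeuRamDef20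
  Fermat.Agent.M1.Car.RatClass25 Fermat.Agent.M1.Tri.Transport53
  Fermat.Agent.M1.Glue.TorsionEigen44 Fermat.Agent.M1.Glue.EigenTors44
  Fermat.Agent.M1.Glue.AuxLevel47 Fermat.Agent.M1.Glue.Iface44

local notation "GQ" => (Qbar ≃ₐ[ℚ] Qbar)

/-- **The THICK seam**: after adjoining roots of unity of a suitable order `m` prime to `p`, the nodes
of the model of record over `L₀ ⊔ ℚ(ζ_m)` are thick of thickness the ramification index. -/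
def ThickSeam : Prop :=
  ∀ (p : ℕ) [NeZero p] (M'' : ℕ) [NeZero M''] (A : ValuationSubring Qbar),
    p.Prime → p ≠ 2 → ¬ p ∣ M'' → 4 ∣ M'' → A.LiesOverPrime p →
    ∀ (L₀ : IntermediateField ℚ Qbar) [Normal ℚ L₀] [FiniteDimensional ℚ L₀],
      zetaK M'' ∈ L₀ → ∃ m : ℕ, 0 < m ∧ ¬ p ∣ m ∧ ∀ z : Qbar, IsPrimitiveRoot z m →
        ∀ [Normal ℚ ↥(L₀ ⊔ ℚ⟮z⟯)] [FiniteDimensional ℚ ↥(L₀ ⊔ ℚ⟮z⟯)]
          (ht : tq (↥(L₀ ⊔ ℚ⟮z⟯)) 4 8 ∈ FK M'' (L₀ ⊔ ℚ⟮z⟯))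
          (hE : FK (M'' * p) (L₀ ⊔ ℚ⟮z⟯) ≤ fracField (AK A (L₀ ⊔ ℚ⟮z⟯)))
          (ϖ : ↥(AK A (L₀ ⊔ ℚ⟮z⟯))) (hπ : IsUnif (AK A (L₀ ⊔ ℚ⟮z⟯)) ϖ),
          ∃ e : ℕ, 0 < e ∧
            (∃ v : (↥(AK A (L₀ ⊔ ℚ⟮z⟯)))ˣ, ((p : ℕ) : ↥(AK A (L₀ ⊔ ℚ⟮z⟯))) = v * ϖ ^ e) ∧
            ThickNodes ϖ (ModelDefs9.B0 A p ht) (ModelDefs9.B1 A p ht)
              (ModelDefs9.O1 M'' p hπ hE) (ModelDefs9.O2 M'' p hπ hE) e

/-- **The (T4) seam.** -/
def T4Seam : Prop :=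
  ∀ (p : ℕ) [hp : Fact p.Prime] (M' : ℕ) [NeZero M'],
    haveI : NeZero p := ⟨hp.out.ne_zero⟩
    5 ≤ p → ¬ p ∣ M' → Squarefree M' →
    ∀ (A : ValuationSubring Qbar), A.LiesOverPrime p →
    ∀ (S : Finset ℕ), p ∈ S → 2 ∈ S → (∀ r : ℕ, r.Prime → r ∣ M' → r ∈ S) →
    ∀ (a : ℕ → ℤ), ¬ IsResModular p M' S a →
      (∃ l : ℕ, l.Prime ∧ l ∉ S ∧ ¬ (p : ℤ) ∣ a l - l - 1) →
    ∀ (L : IntermediateField ℚ Qbar) [Normal ℚ L] [FiniteDimensional ℚ L],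
      zetaK (auxM M') ∈ L → ∀ (ϖ : ↥(AK A L)), PeuRamData p A L ϖ →
      ∀ (hπ : IsUnif (AK A L) ϖ) (hE : FK (auxM M' * p) L ≤ fracField (AK A L))
        (ht : tq (↥L) 4 8 ∈ FK (auxM M') L)
        (_N : NodalNumData ↥(AK A L) ↥L ↥(FK (auxM M' * p) L) ϖ (ModelDefs9.tN p ht)
          (ModelDefs9.B0 A p ht) (ModelDefs9.B1 A p ht) (ModelDefs9.O1 (auxM M') p hπ hE)
          (ModelDefs9.O2 (auxM M') p hπ hE))
        (_hac1 : ResidueAlgClosed ϖ (ModelDefs9.O1 (auxM M') p hπ hE))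
        (_hac2 : ResidueAlgClosed ϖ (ModelDefs9.O2 (auxM M') p hπ hE))
        (e : ℕ) (_he : ∃ v : (↥(AK A L))ˣ, ((p : ℕ) : ↥(AK A L)) = v * ϖ ^ e)
        (_hth : ThickNodes ϖ (ModelDefs9.B0 A p ht) (ModelDefs9.B1 A p ht)
          (ModelDefs9.O1 (auxM M') p hπ hE) (ModelDefs9.O2 (auxM M') p hπ hE) e)
        (hπ1 : algebraMap ↥(AK A L) ↥(FK (auxM M' * p) L) ϖ ∈ ModelDefs9.O1 (auxM M') p hπ hE)
        (hπ2 : algebraMap ↥(AK A L) ↥(FK (auxM M' * p) L) ϖ ∈ ModelDefs9.O2 (auxM M') p hπ hE),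
        ∀ v ∈ VL (auxM M' * p) L (auxV M' p (eigenTors p (M' * p) S a)),
          v ∈ Cart ϖ (ModelDefs9.B0 A p ht) (ModelDefs9.B1 A p ht)
            (ModelDefs9.O1 (auxM M') p hπ hE) (ModelDefs9.O2 (auxM M') p hπ hE) hπ1 hπ2 0 →
          v ∈ Cart ϖ (ModelDefs9.B0 A p ht) (ModelDefs9.B1 A p ht)
            (ModelDefs9.O1 (auxM M') p hπ hE) (ModelDefs9.O2 (auxM M') p hπ hE) hπ1 hπ2 1

/-- **The `htor` seam** (wild case). -/
def TorSeam : Prop :=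
  ∀ (p : ℕ) [hp : Fact p.Prime] (M' : ℕ) [NeZero M'],
    haveI : NeZero p := ⟨hp.out.ne_zero⟩
    5 ≤ p → ¬ p ∣ M' → Squarefree M' →
    ∀ (A : ValuationSubring Qbar), A.LiesOverPrime p →
    ∀ (S : Finset ℕ), p ∈ S → 2 ∈ S → (∀ r : ℕ, r.Prime → r ∣ M' → r ∈ S) →
    ∀ (a : ℕ → ℤ), ¬ IsResModular p M' S a →
      (∃ l : ℕ, l.Prime ∧ l ∉ S ∧ ¬ (p : ℤ) ∣ a l - l - 1) →
    ∀ (L : IntermediateField ℚ Qbar) [Normal ℚ L] [FiniteDimensional ℚ L],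
      zetaK (auxM M') ∈ L → ∀ (ϖ : ↥(AK A L)), PeuRamData p A L ϖ →
      ∀ (hπ : IsUnif (AK A L) ϖ) (hE : FK (auxM M' * p) L ≤ fracField (AK A L))
        (ht : tq (↥L) 4 8 ∈ FK (auxM M') L)
        (N : NodalNumData ↥(AK A L) ↥L ↥(FK (auxM M' * p) L) ϖ (ModelDefs9.tN p ht)
          (ModelDefs9.B0 A p ht) (ModelDefs9.B1 A p ht) (ModelDefs9.O1 (auxM M') p hπ hE)
          (ModelDefs9.O2 (auxM M') p hπ hE))
        (hac1 : ResidueAlgClosed ϖ (ModelDefs9.O1 (auxM M') p hπ hE))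
        (hac2 : ResidueAlgClosed ϖ (ModelDefs9.O2 (auxM M') p hπ hE))
        (_hth : ThickNodes ϖ (ModelDefs9.B0 A p ht) (ModelDefs9.B1 A p ht)
          (ModelDefs9.O1 (auxM M') p hπ hE) (ModelDefs9.O2 (auxM M') p hπ hE) (p * (p - 1)))
        (hπ1 : algebraMap ↥(AK A L) ↥(FK (auxM M' * p) L) ϖ ∈ ModelDefs9.O1 (auxM M') p hπ hE)
        (hπ2 : algebraMap ↥(AK A L) ↥(FK (auxM M' * p) L) ϖ ∈ ModelDefs9.O2 (auxM M') p hπ hE),
        Associated (ϖ ^ (p * (p - 1))) ((p : ℕ) : AK A L) →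
        ∀ n : ℕ, 1 ≤ n → n < p →
        ∀ v ∈ VL (auxM M' * p) L (auxV M' p (eigenTors p (M' * p) S a)),
        v ∈ Cart ϖ (ModelDefs9.B0 A p ht) (ModelDefs9.B1 A p ht)
          (ModelDefs9.O1 (auxM M') p hπ hE) (ModelDefs9.O2 (auxM M') p hπ hE) hπ1 hπ2 n →
        ∃ D : Divisor.degZero (K := ↥L) (F := ↥(FK (auxM M' * p) L)), Pic0.mk D = v ∧
          HasLevel ϖ (ModelDefs9.B0 A p ht) (ModelDefs9.B1 A p ht)
            (ModelDefs9.O1 (auxM M') p hπ hE) (ModelDefs9.O2 (auxM M') p hπ hE) n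
            (D : Divisor ↥L ↥(FK (auxM M' * p) L)) ∧
          ∃ c, HasLead (algebraMap ↥(AK A L) ↥(FK (auxM M' * p) L) ϖ) n
            ((torsFrame_of_numData N hac1 hac2
              (Fermat.Agent.M1.Fib.NodeExists61.hasNode_of_numData N)).pair
                (D : Divisor ↥L ↥(FK (auxM M' * p) L))) c ∧
            Pic2.ToricPic15.IsToric ϖ (ModelDefs9.B0 A p ht) (ModelDefs9.B1 A p ht)
              (ModelDefs9.O1 (auxM M') p hπ hE) (ModelDefs9.O2 (auxM M') p hπ hE) c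

/-- **`CoreTors` from the three seams.** -/
theorem coreTors_of_seams (h1 : ThickSeam) (h2 : T4Seam) (h3 : TorSeam) : CoreTors := by
  intro p hp M' _ hp5 hpM hsq A hA H hHn hPR S hpS h2S hMS a hnres hne τ hτ c hc y hy hfix
  haveI : NeZero p := ⟨hp.out.ne_zero⟩
  have hp2 : p ≠ 2 := by omega
  exact Fermat.Agent.M1.Tri.MainMid43.hcore_of_seams hp.out hp2 hA (auxM M')
    (not_dvd_auxM hp.out hp2 hpM) (four_dvd_auxM M')
    (auxV M' p (eigenTors p (M' * p) S a))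
    Fermat.Agent.M1.Glue.EigenAdapter47.tors_auxV_eigenTors
    (fun σ => Fermat.Agent.M1.Glue.EigenAdapter47.stable_auxV_eigenTors σ)
    (h1 p (auxM M') A hp.out hp2 (not_dvd_auxM hp.out hp2 hpM) (four_dvd_auxM M') hA)
    (h2 p M' hp5 hpM hsq A hA S hpS h2S hMS a hnres hne)
    (h3 p M' hp5 hpM hsq A hA S hpS h2S hMS a hnres hne)
    H hHn hPR τ hτ c hc y hy hfix

end Fermat.Agent.M1.Tri.MainSeams43
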