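/-
M1 (row 38, S44), chapter TRI — helper43.

**`CoreTors` FROM THE (T4) SEAM ALONE**: the THICK seam (`Mod/ThickSeam43.thick_seam`) and the `htor`
seam (`NRM/HtorModel88.htor_model` fed with (h4) `Glue/EigenAdapter47.push_auxV_eigenTors_eq_zero`)
are discharged here.
-/
import Mathlib
import Fermat.Agent.M1.Tri.MainSeams43
import Fermat.Agent.M1.Mod.ThickSeam43
import Fermat.Agent.M1.NRM.HtorModel88

set_option autoImplicit false
set_option linter.unusedSectionVars false
set_option linter.style.haveILetI false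
set_option synthInstance.maxHeartbeats 400000

noncomputable section

open HahnSeries AlgebraicCurve ModularCurve IntermediateField

namespace Fermat.Agent.M1.Tri.MainOfT443

open Fermat.Agent.RED.Interface4 Fermat.Agent.M1.Glue.AuxLevel47 Fermat.Agent.M1.Glue.Iface44
  Fermat.Agent.M1.Tri.MainSeams43

/-- the THICK seam. -/
theorem thickSeam : ThickSeam := by
  intro p _ M'' _ A hp hp2 hpM hM hA L₀ _ _ hζ
  exact Fermat.Agent.M1.Mod.ThickSeam43.thick_seam hp hp2 hpM hM hA L₀ hζ

set_option maxHeartbeats 4000000 in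
/-- the `htor` seam. -/
theorem torSeam : TorSeam := by
  intro p hp M' _ hp5 hpM' _ A hA S hpS h2S hM'S a hnres hne L _ _ hζ ϖ hd hπ hE ht N hac1 hac2 hth
    hπ1 hπ2 hass
  haveI : NeZero p := ⟨hp.out.ne_zero⟩
  have hp2 : p ≠ 2 := by omega
  exact Fermat.Agent.M1.NRM.HtorModel88.htor_model hp.out hp2 (not_dvd_auxM hp.out hp2 hpM')
    (four_dvd_auxM M') hA hζ ht hE hπ N hac1 hac2
    (Fermat.Agent.M1.Glue.AuxLevel47.auxV M' p
      (Fermat.Agent.M1.Glue.EigenTors44.eigenTors p (M' * p) S a))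
    (Fermat.Agent.M1.Glue.EigenAdapter47.push_auxV_eigenTors_eq_zero hp2 hpM' hpS hM'S hnres)

/-- **The M1 main theorem from the (T4) seam.** -/
theorem coreTors_of_t4 (h : T4Seam) : CoreTors := coreTors_of_seams thickSeam h torSeam

end Fermat.Agent.M1.Tri.MainOfT443
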