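/-
M1 (row 38, S44), chapter TRI — helper43.

**THE M1 MAIN THEOREM `coreTors : Glue/Iface44.CoreTors`.**

`Tri/MainOfT443.coreTors_of_t4` (THICK and `htor` seams discharged) with the (T4) seam
`Old/T4Final98.t4_seam`.
-/
import Mathlib
import Fermat.Agent.M1.Tri.MainOfT443
import Fermat.Agent.M1.Old.T4Final98

set_option autoImplicit false

namespace Fermat.Agent.M1.Tri.Main43

open Fermat.Agent.M1.Glue.Iface44 Fermat.Agent.M1.Tri.MainSeams43

/-- the (T4) seam. -/
theorem t4Seam : T4Seam := by
  intro p _ M' _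
  exact Fermat.Agent.M1.Old.T4Final98.t4_seam p M'

/-- **The M1 main theorem.** -/
theorem coreTors : CoreTors := Fermat.Agent.M1.Tri.MainOfT443.coreTors_of_t4 t4Seam

end Fermat.Agent.M1.Tri.Main43
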